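/-
The coefficientwise action of an automorphism of the constants on the function field of the
special fibre, and the Frobenius identity for Laurent series in characteristic `p`.
-/
import Fermat.Prelude.Def_ModularCurve_ReductionModL
import Mathlib.RingTheory.PowerSeries.Expand

set_option autoImplicit false

noncomputable section

open AlgebraicCurve ModularCurve HahnSeries

namespace Fermat.Agent.ES

section CoeffAut

variable {k : Type*} [Field k] (N : ℕ)

theorem coeffMap_mem_fullC (s : k →+* k) {x : LaurentSeries k}
    (hx : x ∈ modularFunctionFieldFullC k N) : coeffMap s x ∈ modularFunctionFieldFullC k N := by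
  induction hx using Subfield.closure_induction with
  | mem y hy =>
      rcases hy with ⟨a, rfl⟩ | ⟨d, hne, hdvd, rfl⟩
      · rw [coeffMap_algebraMap]
        exact (modularFunctionFieldFullC k N).algebraMap_mem _
      · haveI := hne
        rw [coeffMap_qExpand, coeffMap_jqModC]
        exact jqModCd_mem_full k N hdvd
  | one => simp
  | add x y _ _ hx hy => simpa using add_mem hx hy
  | neg x _ hx => simpa using neg_mem hx
  | inv x _ hx => simpa using inv_mem hx
  | mul x y _ _ hx hy => simpa using mul_mem hx hy

/-- An automorphism of `k`, acting on the coefficients. -/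
def coeffRingAut (s : k ≃+* k) :
    modularFunctionFieldFullC k N ≃+* modularFunctionFieldFullC k N where
  toFun x := ⟨coeffMap (s : k →+* k) (x : LaurentSeries k), coeffMap_mem_fullC N _ x.2⟩
  invFun x := ⟨coeffMap (s.symm : k →+* k) (x : LaurentSeries k), coeffMap_mem_fullC N _ x.2⟩
  left_inv x := Subtype.ext (HahnSeries.ext (funext fun n => s.symm_apply_apply _))
  right_inv x := Subtype.ext (HahnSeries.ext (funext fun n => s.apply_symm_apply _))
  map_mul' x y :=
    Subtype.ext (map_mul (coeffMap (s : k →+* k)) (x : LaurentSeries k) (y : LaurentSeries k))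
  map_add' x y :=
    Subtype.ext (map_add (coeffMap (s : k →+* k)) (x : LaurentSeries k) (y : LaurentSeries k))

/-- The semilinear automorphism of the special fibre attached to an automorphism of `k`. -/
def coeffAut (s : k ≃+* k) : SemilinearAut k (modularFunctionFieldFullC k N) :=
  ⟨(coeffRingAut N s, s), fun a => Subtype.ext (coeffMap_algebraMap (s : k →+* k) a)⟩

@[simp]
theorem coe_coeffAut_smul (s : k ≃+* k) (x : modularFunctionFieldFullC k N) :
    ((coeffAut N s • x : modularFunctionFieldFullC k N) : LaurentSeries k) =
      coeffMap (s : k →+* k) (x : LaurentSeries k) :=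
  rfl

theorem coeffAut_one : coeffAut N (1 : k ≃+* k) = 1 := by
  refine Subtype.ext (Prod.ext (RingEquiv.ext fun x => Subtype.ext ?_) rfl)
  exact HahnSeries.ext (funext fun n => rfl)

/-- Order of the conjugate function at a place. -/
theorem ord_coeffAut (s : k ≃+* k) (x : modularFunctionFieldFullC k N)
    (w : Place k (modularFunctionFieldFullC k N)) :
    w.ord (coeffAut N s • x) = ((coeffAut N s)⁻¹ • w).ord x := by
  have h := SemilinearAut.ord_smul (coeffAut N s) ((coeffAut N s)⁻¹ • w) x
  rwa [smul_inv_smul] at h

end CoeffAut

section Frobenius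

variable {k : Type*} [Field k] (p : ℕ) [Fact p.Prime] [CharP k p]

theorem qExpand_ofPowerSeries [NeZero p] (f : PowerSeries k) :
    qExpand k p (HahnSeries.ofPowerSeries ℤ k f) =
      HahnSeries.ofPowerSeries ℤ k (PowerSeries.expand p (NeZero.ne p) f) := by
  ext m
  by_cases hm : (p : ℤ) ∣ m
  · obtain ⟨i, rfl⟩ := hm
    rw [qExpand_coeff_mul]
    rcases le_or_gt 0 i with hi | hi
    · lift i to ℕ using hi
      rw [← Nat.cast_mul, ofPowerSeries_apply_coeff, ofPowerSeries_apply_coeff,
        PowerSeries.coeff_expand_mul]
    · rw [ofPowerSeries_coeff_of_neg _ hi, ofPowerSeries_coeff_of_neg]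
      exact mul_neg_of_pos_of_neg (by exact_mod_cast (NeZero.pos p)) hi
  · rw [qExpand_coeff_of_not_dvd p _ hm]
    rcases le_or_gt 0 m with hi | hi
    · lift m to ℕ using hi
      rw [ofPowerSeries_apply_coeff, PowerSeries.coeff_expand_of_not_dvd]
      exact fun h => hm (Int.natCast_dvd_natCast.mpr h)
    · rw [ofPowerSeries_coeff_of_neg _ hi]

/-- In characteristic `p`, the `p`-th power is the Frobenius twist of the `p`-fold expansion. -/
theorem pow_char_eq [NeZero p] (x : LaurentSeries k) :
    x ^ p = qExpand k p (coeffMap (frobenius k p) x) := by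
  have hps : ∀ f : PowerSeries k,
      f ^ p = PowerSeries.expand p (NeZero.ne p) (f.map (frobenius k p)) := fun f => by
    rw [← PowerSeries.map_expand]
    exact (MvPowerSeries.map_frobenius_expand (σ := Unit) (f := f) p (NeZero.ne p)).symm
  conv_lhs => rw [← LaurentSeries.single_order_mul_powerSeriesPart x]
  conv_rhs => rw [← LaurentSeries.single_order_mul_powerSeriesPart x]
  rw [mul_pow, map_mul, map_mul, HahnSeries.single_pow, one_pow, coeffMap_single, map_one (frobenius k p),
    coeffMap_ofPowerSeries, qExpand_single, qExpand_ofPowerSeries, ← hps, ← map_pow, nsmul_eq_mul]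

end Frobenius

end Fermat.Agent.ES
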