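/-
Divisor lemmas for the congruence relation: a map of divisor groups which kills principal
divisors and is bounded on effective divisors kills every divisor of degree zero.
-/
import Fermat.Prelude.Def_AlgebraicCurve_Correspondence
import Mathlib.Data.Finsupp.Order

set_option autoImplicit false

noncomputable section

open AlgebraicCurve

namespace Fermat.Agent.ES

section Generic

variable {K F : Type*} [Field K] [Field F] [Algebra K F]
variable {k Fb : Type*} [Field k] [Field Fb] [Algebra k Fb]

/-- Divisors of large degree are linearly equivalent to effective divisors. -/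
def HasEffectiveRep (K F : Type*) [Field K] [Field F] [Algebra K F] : Prop :=
  ∃ c : ℤ, ∀ D : Divisor K F, c ≤ Divisor.degree D →
    ∃ E : Divisor K F, 0 ≤ E ∧ D - E ∈ Divisor.principal (K := K) (F := F)

theorem degree_nonneg_of_effective {E : Divisor K F} (hE : 0 ≤ E) : 0 ≤ Divisor.degree E := by
  unfold Divisor.degree
  rw [Finsupp.liftAddHom_apply]
  refine Finsupp.sum_nonneg fun v _ => ?_
  simp only [AddMonoidHom.coe_mulRight]
  exact mul_nonneg (hE v) (Int.natCast_nonneg _)

theorem apply_le_degree (hdeg : ∀ P : Place K F, P.deg = 1) {E : Divisor K F} (hE : 0 ≤ E)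
    (P : Place K F) : E P ≤ Divisor.degree E := by
  have h : 0 ≤ E - Finsupp.single P (E P) := by
    intro Q
    rcases eq_or_ne Q P with rfl | hQ
    · simp
    · simp only [Finsupp.coe_zero, Pi.zero_apply, Finsupp.sub_apply,
        Finsupp.single_eq_of_ne hQ, sub_zero]
      exact hE Q
  have h' := degree_nonneg_of_effective h
  rw [map_sub, Divisor.degree_single, hdeg, Nat.cast_one, mul_one] at h'
  omega

/-- For an effective divisor on a curve with degree one places, any push forward of places has
coefficients at most the degree. -/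
theorem mapDomain_apply_le (hdeg : ∀ P : Place K F, P.deg = 1) {β : Type*} (f : Place K F → β)
    {E : Divisor K F} (hE : 0 ≤ E) (Q : β) :
    0 ≤ Finsupp.mapDomain f E Q ∧ Finsupp.mapDomain f E Q ≤ Divisor.degree E := by
  classical
  refine ⟨Finsupp.mapDomain_nonneg hE Q, ?_⟩
  rw [Finsupp.mapDomain, Finsupp.sum_apply]
  unfold Divisor.degree
  rw [Finsupp.liftAddHom_apply]
  simp only [Finsupp.sum, AddMonoidHom.coe_mulRight, hdeg, Nat.cast_one, mul_one]
  refine Finset.sum_le_sum fun P _ => ?_
  rw [Finsupp.single_apply]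
  split_ifs
  · exact le_rfl
  · exact hE P

theorem degree_of_mem_principal [HasPrincipalDivisors K F] {D : Divisor K F}
    (hD : D ∈ Divisor.principal (K := K) (F := F)) : Divisor.degree D = 0 := by
  obtain ⟨f, hf, hDf⟩ := hD
  obtain ⟨D', hD', hdeg'⟩ := HasPrincipalDivisors.exists_divisor (K := K) f hf
  rw [show D = D' from Finsupp.ext fun v => (hDf v).trans (hD' v).symm, hdeg']

/-- The main trick: if `δ` kills principal divisors and is bounded in terms of the degree on
effective divisors, then it kills all divisors of degree zero. -/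
theorem eq_zero_of_mem_degZero [HasPrincipalDivisors K F] (hdeg : ∀ P : Place K F, P.deg = 1) (hrep : HasEffectiveRep K F)
    {β : Type*} (δ : Divisor K F →+ (β →₀ ℤ))
    (hprin : ∀ D ∈ Divisor.principal (K := K) (F := F), δ D = 0)
    {C : ℤ} (hC : ∀ E : Divisor K F, 0 ≤ E → ∀ Q, |δ E Q| ≤ C * Divisor.degree E)
    {D : Divisor K F} (hD : D ∈ Divisor.degZero (K := K) (F := F)) : δ D = 0 := by
  rcases isEmpty_or_nonempty (Place K F) with hempty | ⟨⟨O⟩⟩
  · rw [Subsingleton.elim D 0, map_zero]
  obtain ⟨c, hc⟩ := hrep
  ext Q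
  rw [Finsupp.zero_apply]
  by_contra hne
  set B : ℤ := C * c + |c * δ (Finsupp.single O 1) Q| with hB
  set n : ℕ := B.toNat + 1 with hn
  obtain ⟨E, hE, hEp⟩ := hc ((n : ℤ) • D + c • Finsupp.single O 1) (by
    rw [map_add, map_zsmul, map_zsmul, Divisor.mem_degZero.mp hD, Divisor.degree_single, hdeg]
    simp)
  have hdegE : Divisor.degree E = c := by
    have h := degree_of_mem_principal hEp
    rw [map_sub, map_add, map_zsmul, map_zsmul, Divisor.mem_degZero.mp hD,
      Divisor.degree_single, hdeg] at h
    simp only [smul_eq_mul, mul_zero, Nat.cast_one, mul_one, zero_add] at h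
    omega
  have h0 := congrArg (fun G => G Q) (hprin _ hEp)
  simp only [map_sub, map_add, map_zsmul, Finsupp.sub_apply, Finsupp.add_apply,
    Finsupp.smul_apply, smul_eq_mul, Finsupp.zero_apply] at h0
  have hbd := hC E hE Q
  rw [hdegE, show δ E Q = (n : ℤ) * δ D Q + c * δ (Finsupp.single O 1) Q by omega] at hbd
  have h1 := abs_add_le ((n : ℤ) * δ D Q + c * δ (Finsupp.single O 1) Q)
    (-(c * δ (Finsupp.single O 1) Q))
  rw [add_neg_cancel_right, abs_neg] at h1
  have h2 : (n : ℤ) ≤ |(n : ℤ) * δ D Q| := by
    rw [abs_mul, Nat.abs_cast]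
    exact le_mul_of_one_le_right (Int.natCast_nonneg _) (Int.one_le_abs hne)
  omega

end Generic

end Fermat.Agent.ES
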