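/-
Galois compatibility of the reduction of `J₀(N)` at a place, for any choice of the place
reduction in `ReductionInputsModL`.
-/
import Fermat.Agent.ES.SpecialCoeff
import Fermat.Agent.ES.SpecialDivisor
import Fermat.Prelude.Def_EllipticCurve_FrobeniusTrace

set_option autoImplicit false

noncomputable section

open AlgebraicCurve ModularCurve HahnSeries

namespace Fermat.Agent.ES

/-- The general facts about the curve `X₀(N)` over `ℚ̄` used in the specialization argument. -/
structure CurveFacts (N : ℕ) : Prop where
  hasPrincipalDivisors :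
    HasPrincipalDivisors (AlgebraicClosure ℚ) (modularFunctionFieldBar N)
  deg_eq_one : ∀ P : Place (AlgebraicClosure ℚ) (modularFunctionFieldBar N), P.deg = 1
  hasEffectiveRep : HasEffectiveRep (AlgebraicClosure ℚ) (modularFunctionFieldBar N)

variable {N : ℕ} (A : ValuationSubring (AlgebraicClosure ℚ))

section Residue

variable {σ : AlgebraicClosure ℚ ≃ₐ[ℚ] AlgebraicClosure ℚ}

/-- The restriction of an element of the decomposition group to the valuation ring. -/
def decompRingHom (hσ : σ ∈ A.decompositionSubgroup ℚ) : A →+* A :=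
  MulSemiringAction.toRingHom (A.decompositionSubgroup ℚ) A ⟨σ, hσ⟩

/-- The automorphism of the residue field induced by an element of the decomposition group. -/
def residueAut (hσ : σ ∈ A.decompositionSubgroup ℚ) :
    IsLocalRing.ResidueField A ≃+* IsLocalRing.ResidueField A :=
  MulSemiringAction.toRingEquiv (A.decompositionSubgroup ℚ) (IsLocalRing.ResidueField A) ⟨σ, hσ⟩

theorem residueAut_residue (hσ : σ ∈ A.decompositionSubgroup ℚ) (a : A) :
    residueAut A hσ (IsLocalRing.residue A a) =
      IsLocalRing.residue A (decompRingHom A hσ a) :=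
  rfl

theorem coe_decompRingHom (hσ : σ ∈ A.decompositionSubgroup ℚ) (a : A) :
    ((decompRingHom A hσ a : A) : AlgebraicClosure ℚ) = σ a :=
  rfl

theorem residueAut_eq_one_of_mem_inertia (hσ : σ ∈ A.inertiaSubgroupIn ℚ) :
    ∃ h : σ ∈ A.decompositionSubgroup ℚ, residueAut A h = 1 := by
  obtain ⟨g, hg, rfl⟩ := hσ
  refine ⟨g.2, RingEquiv.ext fun x => ?_⟩
  have h := RingEquiv.congr_fun (MonoidHom.mem_ker.mp hg) x
  exact h

end Residue

variable [NeZero N]

section Reduction

variable {σ : AlgebraicClosure ℚ ≃ₐ[ℚ] AlgebraicClosure ℚ}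

/-- A place reduction commutes with the decomposition group on divisors of degree zero. -/
theorem mapDomain_galois (hX : CurveFacts N)
    {r : Place (AlgebraicClosure ℚ) (modularFunctionFieldBar N) →
      Place (IsLocalRing.ResidueField A)
        (modularFunctionFieldFullC (IsLocalRing.ResidueField A) N)}
    (hr : IsPlaceReductionModL A N r)
    (hgen : PrincipalGeneratedByIntegral A (IsLocalRing.residue A) N)
    (hσ : σ ∈ A.decompositionSubgroup ℚ)
    {D : Divisor (AlgebraicClosure ℚ) (modularFunctionFieldBar N)}
    (hD : D ∈ Divisor.degZero (K := AlgebraicClosure ℚ) (F := modularFunctionFieldBar N)) :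
    Finsupp.mapDomain r (arithmeticGalois (modularFunctionFieldFull N) σ • D) =
      coeffAut N (residueAut A hσ) • Finsupp.mapDomain r D := by
  haveI := hX.hasPrincipalDivisors
  set g := arithmeticGalois (modularFunctionFieldFull N) σ with hg
  set s := residueAut A hσ with hs
  let δ : Divisor (AlgebraicClosure ℚ) (modularFunctionFieldBar N) →+
      Divisor (IsLocalRing.ResidueField A)
        (modularFunctionFieldFullC (IsLocalRing.ResidueField A) N) :=
    (Finsupp.mapDomain.addMonoidHom r).comp (DistribSMul.toAddMonoidHom _ g) -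
      (DistribSMul.toAddMonoidHom _ (coeffAut N s)).comp (Finsupp.mapDomain.addMonoidHom r)
  have hδ : ∀ E, δ E = Finsupp.mapDomain r (g • E) - coeffAut N s • Finsupp.mapDomain r E :=
    fun E => rfl
  have hint : ∀ E ∈ integralPrincipalDivisors A (IsLocalRing.residue A) N, δ E = 0 := by
    rintro E ⟨y, hy, hyk, hne, hE⟩
    rw [hδ, sub_eq_zero]
    set y' : LaurentSeries A := coeffMap (decompRingHom A hσ) y with hy'
    have h1 : coeffMap A.subtype y' =
        coeffMap (σ : AlgebraicClosure ℚ →+* AlgebraicClosure ℚ) (coeffMap A.subtype y) :=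
      HahnSeries.ext (funext fun n => rfl)
    have h2 : coeffMap (IsLocalRing.residue A) y' =
        coeffMap (s : IsLocalRing.ResidueField A →+* IsLocalRing.ResidueField A)
          (coeffMap (IsLocalRing.residue A) y) :=
      HahnSeries.ext (funext fun n => rfl)
    have hy'F : coeffMap A.subtype y' ∈ modularFunctionFieldBar N := by
      rw [h1]; exact coeffMap_mem_laurentBaseChange σ hy
    have hy'k : coeffMap (IsLocalRing.residue A) y' ∈
        modularFunctionFieldFullC (IsLocalRing.ResidueField A) N := by
      rw [h2]; exact coeffMap_mem_fullC N _ hyk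
    have hne' : coeffMap (IsLocalRing.residue A) y' ≠ 0 := by
      intro h0
      apply hne
      ext n
      have h3 := congrArg (fun z => HahnSeries.coeff z n) h0
      simp only [h2, coeffMap_coeff, HahnSeries.coeff_zero, RingEquiv.coe_toRingHom,
        map_eq_zero] at h3
      simpa using h3
    have hgE : ∀ P, (g • E) P = P.ord (⟨coeffMap A.subtype y', hy'F⟩ :
        modularFunctionFieldBar N) := by
      intro P
      rw [SemilinearAut.divisor_smul_apply, hE]
      have h := SemilinearAut.ord_smul g (g⁻¹ • P) ⟨coeffMap A.subtype y, hy⟩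
      rw [smul_inv_smul] at h
      rw [← h]
      exact congrArg P.ord (Subtype.ext h1.symm)
    ext Q
    rw [hr.2 y' hy'F hy'k hne' _ hgE Q, SemilinearAut.divisor_smul_apply,
      hr.2 y hy hyk hne _ hE, ← ord_coeffAut]
    exact congrArg Q.ord (Subtype.ext h2)
  have hprin : ∀ E ∈ Divisor.principal (K := AlgebraicClosure ℚ) (F := modularFunctionFieldBar N),
      δ E = 0 := by
    intro E hE
    exact (AddSubgroup.closure_le δ.ker).mpr (fun E' hE' => hint E' hE') (hgen hE)
  have hbd : ∀ E : Divisor (AlgebraicClosure ℚ) (modularFunctionFieldBar N), 0 ≤ E →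
      ∀ Q, |δ E Q| ≤ 1 * Divisor.degree E := by
    intro E hE Q
    have h1 := mapDomain_apply_le hX.deg_eq_one r
      (E := g • E) (fun P => by rw [SemilinearAut.divisor_smul_apply]; exact hE _) Q
    rw [SemilinearAut.degree_smul] at h1
    have h2 := mapDomain_apply_le hX.deg_eq_one r hE ((coeffAut N s)⁻¹ • Q)
    rw [hδ, Finsupp.sub_apply, SemilinearAut.divisor_smul_apply, one_mul, abs_le]
    omega
  have h := eq_zero_of_mem_degZero hX.deg_eq_one hX.hasEffectiveRep δ hprin hbd hD
  rwa [hδ, sub_eq_zero] at h

/-- Reduction intertwines an element of the decomposition group with the action on coefficients. -/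
theorem reductionModL_galois (hX : CurveFacts N) (h : ReductionInputsModL A N)
    (hσ : σ ∈ A.decompositionSubgroup ℚ) (x : JZero N) :
    reductionModL A N (σ • x) = coeffAut N (residueAut A hσ) • reductionModL A N x := by
  obtain ⟨D, rfl⟩ := Pic0.mk_surjective x
  rw [galois_smul_pic0_def, SemilinearAut.pic0_smul_mk, reductionModL_mk h, reductionModL_mk h,
    SemilinearAut.pic0_smul_mk]
  exact congrArg Pic0.mk
    (Subtype.ext (mapDomain_galois A hX h.choose_spec.1 h.choose_spec.2 hσ D.2))

end Reduction

end Fermat.Agent.ES
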