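/-
Formal series lemmas for the congruence relation: the substitution `q ↦ u q`,
the Frobenius identity `f(q)^ℓ = f^φ(q^ℓ)`.
-/
import Fermat.Prelude.Def_ModularCurve_X0
import Fermat.Prelude.Def_ModularCurve_LaurentCoeff
import Mathlib.RingTheory.PowerSeries.Expand
import Mathlib.RingTheory.MvPowerSeries.Expand
import Mathlib.Algebra.CharP.Frobenius

set_option autoImplicit false

noncomputable section

open ModularCurve HahnSeries

namespace Fermat.Agent.EichlerShimura

section Twist

variable {R S : Type*} [CommRing R] [CommRing S]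

/-- The substitution `q ↦ u q` on Laurent series: the coefficient of `q^n` is multiplied by
`u^n`. -/
def twist (u : Rˣ) : LaurentSeries R →+* LaurentSeries R where
  toFun x :=
    { coeff := fun n => ((u ^ n : Rˣ) : R) * x.coeff n
      isPWO_support' := x.isPWO_support'.mono fun n hn h0 => hn (by simp [h0]) }
  map_one' := by
    ext n
    rcases eq_or_ne n 0 with rfl | hn
    · simp [HahnSeries.coeff_one]
    · simp [HahnSeries.coeff_one, hn]
  map_mul' x y := by
    ext n
    show ((u ^ n : Rˣ) : R) * (x * y).coeff n = _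
    rw [HahnSeries.coeff_mul, HahnSeries.coeff_mul, Finset.mul_sum]
    refine Finset.sum_congr ?_ fun ij hij => ?_
    · ext ij
      simp [Finset.mem_antidiagonal]
    · simp only [Finset.mem_antidiagonal] at hij
      show _ = ((u ^ ij.1 : Rˣ) : R) * x.coeff ij.1 * (((u ^ ij.2 : Rˣ) : R) * y.coeff ij.2)
      rw [← hij.2.2, zpow_add, Units.val_mul]
      ring
  map_zero' := by ext n; simp
  map_add' x y := by ext n; simp [mul_add]

theorem twist_coeff (u : Rˣ) (x : LaurentSeries R) (n : ℤ) :
    (twist u x).coeff n = ((u ^ n : Rˣ) : R) * x.coeff n := rfl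

theorem coeffMap_twist (f : R →+* S) (u : Rˣ) (x : LaurentSeries R) :
    coeffMap f (twist u x) = twist (Units.map (f : R →* S) u) (coeffMap f x) := by
  ext n
  rw [coeffMap_coeff, twist_coeff, twist_coeff, coeffMap_coeff, map_mul, ← map_zpow]
  rfl

theorem twist_one (x : LaurentSeries R) : twist (1 : Rˣ) x = x := by
  ext n
  simp [twist_coeff]

theorem twist_qExpand (u : Rˣ) (d : ℕ) [NeZero d] (x : LaurentSeries R) :
    twist u (qExpand R d x) = qExpand R d (twist (u ^ d) x) := by
  ext n
  by_cases hn : (d : ℤ) ∣ n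
  · obtain ⟨m, rfl⟩ := hn
    rw [twist_coeff, qExpand_coeff_mul, qExpand_coeff_mul, twist_coeff, ← zpow_natCast u d,
      ← zpow_mul]
  · rw [twist_coeff, qExpand_coeff_of_not_dvd d x hn, qExpand_coeff_of_not_dvd d _ hn, mul_zero]

end Twist

section Descend

variable {R S : Type*} [CommRing R] [CommRing S]

/-- A series whose image is supported on multiples of `n` is itself of the form `qExpand n z`. -/
theorem exists_eq_qExpand_of_coeffMap_eq {f : R →+* S} (hf : Function.Injective f) (n : ℕ)
    [NeZero n] {g : LaurentSeries R} {w : LaurentSeries S} (h : coeffMap f g = qExpand S n w) :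
    ∃ z : LaurentSeries R, coeffMap f z = w ∧ g = qExpand R n z := by
  obtain ⟨b, hb⟩ : ∃ b : ℤ, ∀ k < b, w.coeff k = 0 :=
    ⟨w.order, fun k hk => HahnSeries.coeff_eq_zero_of_lt_order hk⟩
  have hcoeff : ∀ k, f (g.coeff ((n : ℤ) * k)) = w.coeff k := fun k => by
    rw [← coeffMap_coeff, h, qExpand_coeff_mul]
  let z : LaurentSeries R := HahnSeries.ofSuppBddBelow (fun k => g.coeff ((n : ℤ) * k))
    ⟨b, fun k hk => by
      by_contra hlt
      exact hk (hf (by rw [map_zero, hcoeff, hb k (not_le.1 hlt)]))⟩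
  have hz : coeffMap f z = w := by
    ext k
    simpa [z] using hcoeff k
  refine ⟨z, hz, ?_⟩
  ext k
  apply hf
  rw [← coeffMap_coeff, h]
  by_cases hk : (n : ℤ) ∣ k
  · obtain ⟨m, rfl⟩ := hk
    rw [qExpand_coeff_mul, qExpand_coeff_mul, ← hz, coeffMap_coeff]
  · rw [qExpand_coeff_of_not_dvd n w hk, qExpand_coeff_of_not_dvd n z hk, map_zero]

end Descend

section Frobenius

variable {k : Type*} [CommRing k]

theorem ofPowerSeries_expand (n : ℕ) [NeZero n] (p : PowerSeries k) :
    HahnSeries.ofPowerSeries ℤ k (PowerSeries.expand n (NeZero.ne n) p)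
      = qExpand k n (HahnSeries.ofPowerSeries ℤ k p) := by
  ext m
  by_cases hm : (n : ℤ) ∣ m
  · obtain ⟨l, rfl⟩ := hm
    rw [qExpand_coeff_mul]
    rcases le_or_gt 0 l with hl | hl
    · lift l to ℕ using hl
      rw [show (n : ℤ) * (l : ℤ) = ((n * l : ℕ) : ℤ) by push_cast; rfl,
        HahnSeries.ofPowerSeries_apply_coeff, HahnSeries.ofPowerSeries_apply_coeff,
        PowerSeries.coeff_expand_mul]
    · rw [ofPowerSeries_coeff_of_neg _ hl, ofPowerSeries_coeff_of_neg _ (mul_neg_of_pos_of_neg
        (by exact_mod_cast NeZero.pos n) hl)]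
  · rw [qExpand_coeff_of_not_dvd n _ hm]
    rcases le_or_gt 0 m with hl | hl
    · lift m to ℕ using hl
      rw [HahnSeries.ofPowerSeries_apply_coeff,
        PowerSeries.coeff_expand_of_not_dvd _ _ _ (fun h => hm (by exact_mod_cast h))]
    · rw [ofPowerSeries_coeff_of_neg _ hl]

theorem coeffMap_ofPowerSeries' {S : Type*} [CommRing S] (f : k →+* S) (p : PowerSeries k) :
    coeffMap f (HahnSeries.ofPowerSeries ℤ k p) = HahnSeries.ofPowerSeries ℤ S (p.map f) := by
  ext m
  rw [coeffMap_coeff]
  rcases le_or_gt 0 m with hm | hm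
  · lift m to ℕ using hm
    rw [HahnSeries.ofPowerSeries_apply_coeff, HahnSeries.ofPowerSeries_apply_coeff,
      PowerSeries.coeff_map]
  · rw [ofPowerSeries_coeff_of_neg _ hm, ofPowerSeries_coeff_of_neg _ hm, map_zero]

/-- In characteristic `ℓ`, `f(q)^ℓ = f^φ(q^ℓ)` with `φ` the Frobenius on coefficients. -/
theorem pow_char_eq_qExpand {ℓ : ℕ} [Fact ℓ.Prime] [CharP k ℓ] [NeZero ℓ]
    (x : LaurentSeries k) :
    x ^ ℓ = qExpand k ℓ (coeffMap (frobenius k ℓ) x) := by
  haveI : ExpChar k ℓ := ExpChar.prime Fact.out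
  conv_lhs => rw [← x.single_order_mul_powerSeriesPart]
  conv_rhs => rw [← x.single_order_mul_powerSeriesPart]
  rw [mul_pow, map_mul, map_mul]
  rw [coeffMap_single, qExpand_single, HahnSeries.single_pow, frobenius_def,
    ← map_pow (HahnSeries.ofPowerSeries ℤ k), coeffMap_ofPowerSeries', nsmul_eq_mul]
  congr 1
  rw [← ofPowerSeries_expand, ← PowerSeries.map_expand]
  congr 1
  exact (MvPowerSeries.map_frobenius_expand ℓ (NeZero.ne ℓ)).symm

end Frobenius

end Fermat.Agent.EichlerShimura
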