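/-
The twisted embeddings of the function field of `X₀(Nℓ)` into Laurent series in `q^(1/ℓ)`.
-/
import Fermat.Agent.ES.IdentitySeries
import Fermat.Agent.Galois.QbarInstances
import Fermat.Agent.ModFun.JFun
import Fermat.Prelude.Def_ModularCurve_HeckeOperator
import Fermat.Prelude.Def_ModularCurve_X0ModL
import Mathlib.FieldTheory.IntermediateField.Adjoin.Algebra
import Mathlib.RingTheory.RootsOfUnity.Complex
import Mathlib.NumberTheory.ModularForms.CongruenceSubgroups

set_option autoImplicit false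
set_option linter.style.haveILetI false

noncomputable section

open ModularCurve HahnSeries UpperHalfPlane CongruenceSubgroup Filter
open scoped MatrixGroups Manifold Topology

namespace Fermat.Agent.EichlerShimura

local notation "Qbar" => AlgebraicClosure ℚ

/-- Index set of the generators of the function field of level `M`. -/
abbrev DivIdx (M : ℕ) : Type := {m : ℕ // m ∈ M.divisors}

theorem DivIdx.neZero {M : ℕ} (m : DivIdx M) : NeZero (m : ℕ) :=
  ⟨(Nat.pos_of_mem_divisors m.2).ne'⟩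

/-- The generator `j(q^m)`. -/
def jd (L : Type*) [CommRing L] {M : ℕ} (m : DivIdx M) : LaurentSeries L :=
  haveI := m.neZero
  qExpand L (m : ℕ) (jqModC L)

section Gens

variable (L : Type*) [Field L] [Algebra ℚ L]

theorem coeffEmb_qExpand_jq (d : ℕ) [NeZero d] :
    coeffEmb L (qExpand ℚ d jq) = qExpand L d (jqModC L) := by
  rw [coeffEmb, coeffMap_qExpand, ← jqModC_rat, coeffMap_jqModC]

theorem coeffEmb_jq : coeffEmb L jq = jqModC L := by
  rw [coeffEmb, ← jqModC_rat, coeffMap_jqModC]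

theorem laurentBaseChange_full_le_adjoin (M : ℕ) [NeZero M] :
    laurentBaseChange L (modularFunctionFieldFull M)
      ≤ IntermediateField.adjoin L (Set.range (jd L (M := M))) := by
  rw [laurentBaseChange, IntermediateField.adjoin_le_iff]
  rintro _ ⟨x, hx, rfl⟩
  simp only [SetLike.mem_coe] at hx ⊢
  induction hx using IntermediateField.adjoin_induction with
  | mem y hy =>
    obtain ⟨d, hd0, hd, rfl⟩ := hy
    rw [coeffEmb_qExpand_jq]
    exact IntermediateField.subset_adjoin L _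
      ⟨⟨d, Nat.mem_divisors.2 ⟨hd, NeZero.ne M⟩⟩, rfl⟩
  | algebraMap q =>
    rw [eq_ratCast (algebraMap ℚ (LaurentSeries ℚ)) q, map_ratCast]
    exact SubfieldClass.ratCast_mem _ q
  | add y z _ _ hy hz => rw [map_add]; exact add_mem hy hz
  | inv y _ hy => rw [map_inv₀]; exact inv_mem hy
  | mul y z _ _ hy hz => rw [map_mul]; exact mul_mem hy hz

theorem jd_mem_bar {M : ℕ} [NeZero M] (m : DivIdx M) :
    jd L m ∈ laurentBaseChange L (modularFunctionFieldFull M) := by
  haveI := m.neZero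
  rw [jd, ← coeffEmb_qExpand_jq]
  exact coeffEmb_mem_laurentBaseChange L (jqd_mem_full M (Nat.mem_divisors.1 m.2).1)

theorem laurentBaseChange_full_eq_adjoin (M : ℕ) [NeZero M] :
    laurentBaseChange L (modularFunctionFieldFull M)
      = IntermediateField.adjoin L (Set.range (jd L (M := M))) :=
  le_antisymm (laurentBaseChange_full_le_adjoin L M)
    (IntermediateField.adjoin_le_iff.2 (by rintro _ ⟨m, rfl⟩; exact jd_mem_bar L m))

end Gens

section Targets

variable {N ℓ : ℕ} [NeZero ℓ]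

/-- The conjugate of `j(q^m)` in `L((q^(1/ℓ)))` cut out by the unit `v`. -/
def jdTwist {L : Type*} [CommRing L] (v : Lˣ) (m : DivIdx (N * ℓ)) : LaurentSeries L :=
  haveI := m.neZero
  if h : ℓ ∣ (m : ℕ) then
    haveI : NeZero ((m : ℕ) / ℓ) :=
      ⟨(Nat.div_pos (Nat.le_of_dvd (NeZero.pos _) h) (NeZero.pos ℓ)).ne'⟩
    twist v (qExpand L ((m : ℕ) / ℓ) (jqModC L))
  else qExpand L (ℓ * (m : ℕ)) (jqModC L)

theorem jdTwist_of_eq_mul {L : Type*} [CommRing L] (v : Lˣ) (m : DivIdx (N * ℓ)) (d : ℕ)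
    [NeZero d] (h : (m : ℕ) = d * ℓ) :
    jdTwist v m = twist v (qExpand L d (jqModC L)) := by
  haveI := m.neZero
  have hdvd : ℓ ∣ (m : ℕ) := ⟨d, by rw [h, mul_comm]⟩
  haveI : NeZero ((m : ℕ) / ℓ) :=
    ⟨(Nat.div_pos (Nat.le_of_dvd (NeZero.pos _) hdvd) (NeZero.pos ℓ)).ne'⟩
  rw [jdTwist, dif_pos hdvd]
  exact congrArg _ (qExpand_congr (by rw [h, Nat.mul_div_cancel d (NeZero.pos ℓ)]) _)

theorem jdTwist_of_not_dvd {L : Type*} [CommRing L] (v : Lˣ) (m : DivIdx (N * ℓ))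
    (h : ¬ ℓ ∣ (m : ℕ)) :
    haveI := m.neZero
    jdTwist v m = qExpand L (ℓ * (m : ℕ)) (jqModC L) := by
  haveI := m.neZero
  rw [jdTwist, dif_neg h]

theorem coeffMap_jd {L S : Type*} [CommRing L] [CommRing S] (f : L →+* S) {M : ℕ} (m : DivIdx M) :
    coeffMap f (jd L m) = jd S m := by
  haveI := m.neZero
  rw [jd, coeffMap_qExpand, coeffMap_jqModC, jd]

theorem coeffMap_jdTwist {L S : Type*} [CommRing L] [CommRing S] (f : L →+* S) (v : Lˣ)
    (m : DivIdx (N * ℓ)) : coeffMap f (jdTwist v m) = jdTwist (Units.map (f : L →* S) v) m := by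
  haveI := m.neZero
  by_cases h : ℓ ∣ (m : ℕ)
  · obtain ⟨d, hd⟩ := h
    have hd' : (m : ℕ) = d * ℓ := by rw [hd, mul_comm]
    haveI : NeZero d := ⟨fun h0 => NeZero.ne (m : ℕ) (by rw [hd', h0, zero_mul])⟩
    rw [jdTwist_of_eq_mul v m d hd', jdTwist_of_eq_mul _ m d hd', coeffMap_twist,
      coeffMap_qExpand, coeffMap_jqModC]
  · rw [jdTwist_of_not_dvd v m h, jdTwist_of_not_dvd _ m h, coeffMap_qExpand, coeffMap_jqModC]

end Targets

section Analytic

variable {h : ℕ} [NeZero h] {σ : Type*}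

theorem modFun_twist_eq (u : ℂˣ) (x : LaurentSeries ℂ) : ModFun.twist u x = twist u x := by
  ext k
  rw [ModFun.twist_coeff, twist_coeff, Units.val_zpow_eq_zpow_val]

theorem hasQExp_mvPolynomial {F : σ → ℍ → ℂ} {X : σ → LaurentSeries ℂ}
    (hF : ∀ m, ModFun.HasQExp h (F m) (X m)) (P : MvPolynomial σ ℂ) :
    ModFun.HasQExp h (fun τ => MvPolynomial.eval (fun m => F m τ) P) (MvPolynomial.aeval X P) := by
  induction P using MvPolynomial.induction_on with
  | C c =>
    simp only [MvPolynomial.eval_C, MvPolynomial.aeval_C, algebraMap_laurentSeries_eq_single]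
    exact ModFun.HasQExp.const c
  | add p q hp hq =>
    simp only [map_add]
    exact hp.add hq
  | mul_X p m hp =>
    simp only [map_mul, MvPolynomial.eval_X, MvPolynomial.aeval_X]
    exact hp.mul (hF m)

theorem mdiff_mvPolynomial {F : σ → ℍ → ℂ} (hF : ∀ m, MDiff (F m)) (P : MvPolynomial σ ℂ) :
    MDiff fun τ => MvPolynomial.eval (fun m => F m τ) P := by
  induction P using MvPolynomial.induction_on with
  | C c =>
    simp only [MvPolynomial.eval_C]
    exact mdifferentiable_const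
  | add p q hp hq =>
    simp only [map_add]
    exact hp.add hq
  | mul_X p m hp =>
    simp only [map_mul, MvPolynomial.eval_X]
    exact hp.mul (hF m)

/-- A holomorphic function with zero expansion vanishes identically. -/
theorem eq_zero_of_hasQExp_zero {f : ℍ → ℂ} (hf : MDiff f) (hx : ModFun.HasQExp h f 0) :
    f = 0 := by
  obtain ⟨B, hB⟩ := (atImInfty_mem _).1 hx.eventually_eq_zero
  set τ₀ : ℍ := ⟨Complex.I * ((max B 0 + 1 : ℝ) : ℂ), by simp [add_pos_of_nonneg_of_pos]⟩ with hτ₀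
  apply UpperHalfPlane.eq_zero_of_frequently hf (τ := τ₀)
  refine Filter.Eventually.frequently ?_
  refine Filter.Eventually.filter_mono nhdsWithin_le_nhds ?_
  have hmem : B < τ₀.im := by
    have : τ₀.im = max B 0 + 1 := by simp [hτ₀, UpperHalfPlane.im]
    rw [this]
    linarith [le_max_left B 0]
  filter_upwards [(isOpen_lt continuous_const UpperHalfPlane.continuous_im).mem_nhds hmem]
    with z hz using hB z hz.le

theorem mdiff_jfun_triPoint (a b d : ℕ) [NeZero a] [NeZero d] :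
    MDiff fun τ : ℍ => ModFun.jfun (ModFun.triPoint a b d τ) := by
  rw [UpperHalfPlane.mdifferentiable_iff]
  have hj := UpperHalfPlane.mdifferentiable_iff.1 ModFun.mdifferentiable_jfun
  have haff : DifferentiableOn ℂ (fun z : ℂ => ((a : ℂ) * z + b) / d) {z | 0 < z.im} :=
    ((differentiableOn_id.const_mul _).add_const _).div_const _
  have himage : Set.MapsTo (fun z : ℂ => ((a : ℂ) * z + b) / d) {z | 0 < z.im} {z | 0 < z.im} :=
    fun z hz => (ModFun.triPoint a b d ⟨z, hz⟩).im_pos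
  refine (hj.comp haff himage).congr fun z hz => ?_
  simp only [Function.comp_apply]
  congr 1
  rw [UpperHalfPlane.ofComplex_apply_of_im_pos hz,
    UpperHalfPlane.ofComplex_apply_of_im_pos (himage hz)]
  rfl

end Analytic

section Transfer

variable {N ℓ : ℕ}

/-- The matrices realising the substitution `ℓ τ ↦ (τ + i)/ℓ` inside `Γ₀(N)`. -/
theorem exists_twisting_matrix (hℓ : ℓ.Prime) (hN : ¬ ℓ ∣ N) (i : ℕ) :
    ∃ A B D : ℤ, A * D - B * N = 1 ∧ (ℓ : ℤ) ∣ D - i * N := by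
  have hc : IsCoprime (ℓ : ℤ) (N : ℤ) :=
    Nat.isCoprime_iff_coprime.2 ((Nat.Prime.coprime_iff_not_dvd hℓ).2 hN)
  obtain ⟨a, b, hab⟩ := hc
  -- `D ≡ 1 mod N` and `D ≡ i N mod ℓ`
  refine ⟨1, ((i : ℤ) * N - 1) * b, 1 + ((i : ℤ) * N - 1) * b * N, by ring,
    ⟨-(((i : ℤ) * N - 1) * a), ?_⟩⟩
  linear_combination ((i : ℤ) * N - 1) * hab

/-- `γ''(d τ) = d γ(τ)` and `γ'((d τ + d i)/ℓ) = d ℓ γ(τ)`: the values of `j`. -/
theorem jfun_triPoint_smul [NeZero ℓ] (i : ℕ) (γ : SL(2, ℤ)) (hγN : γ 1 0 = (N : ℤ))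
    (hγℓ : (ℓ : ℤ) ∣ γ 1 1 - i * N) (d : ℕ) [NeZero d] (hd : d ∣ N) (τ : ℍ) :
    ModFun.jfun (ModFun.triPoint d 0 1 (γ • τ)) = ModFun.jfun (ModFun.triPoint d 0 1 τ) ∧
    ModFun.jfun (ModFun.triPoint (d * ℓ) 0 1 (γ • τ))
      = ModFun.jfun (ModFun.triPoint d (d * i) ℓ τ) := by
  obtain ⟨c, hc⟩ := Int.natCast_dvd_natCast.2 hd
  obtain ⟨e, he⟩ := hγℓ
  have hdet : γ 0 0 * γ 1 1 - γ 0 1 * γ 1 0 = 1 := by
    have h := Matrix.det_fin_two (γ : Matrix (Fin 2) (Fin 2) ℤ)
    rw [γ.det_coe] at h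
    exact h.symm
  let γ₁ : SL(2, ℤ) := ⟨!![γ 0 0, (d : ℤ) * γ 0 1; c, γ 1 1], by
    rw [Matrix.det_fin_two_of]
    rw [hγN, hc] at hdet
    linear_combination hdet⟩
  let γ₂ : SL(2, ℤ) := ⟨!![(ℓ : ℤ) * γ 0 0, (d : ℤ) * (γ 0 1 - γ 0 0 * i); c, e], by
    rw [Matrix.det_fin_two_of]
    rw [hγN, hc] at hdet
    rw [hc] at he
    linear_combination hdet - γ 0 0 * he⟩
  have hd0 : (d : ℂ) ≠ 0 := Nat.cast_ne_zero.2 (NeZero.ne d)
  have hℓ0 : (ℓ : ℂ) ≠ 0 := Nat.cast_ne_zero.2 (NeZero.ne ℓ)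
  have hcC : (N : ℂ) = (d : ℂ) * (c : ℂ) := by exact_mod_cast congrArg (Int.cast (R := ℂ)) hc
  have heC : (γ 1 1 : ℂ) - (i : ℂ) * (N : ℂ) = (ℓ : ℂ) * (e : ℂ) := by
    have := congrArg (Int.cast (R := ℂ)) he
    push_cast at this
    exact this
  constructor
  · conv_rhs => rw [← ModFun.jfun_smul γ₁]
    congr 1
    apply UpperHalfPlane.ext
    simp only [ModFun.triPoint, UpperHalfPlane.coe_specialLinearGroup_apply, γ₁]
    simp [hγN, hcC]
    field_simp
  · conv_rhs => rw [← ModFun.jfun_smul γ₂]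
    congr 1
    apply UpperHalfPlane.ext
    simp only [ModFun.triPoint, UpperHalfPlane.coe_specialLinearGroup_apply, γ₂]
    simp [hγN]
    rw [show (γ 1 1 : ℂ) = (ℓ : ℂ) * e + i * N from by linear_combination heC, hcC]
    field_simp
    ring

/-- The function attached to the generator `j(q^m)`. -/
def jdFun {M : ℕ} (m : DivIdx M) (τ : ℍ) : ℂ :=
  haveI := m.neZero
  ModFun.jfun (ModFun.triPoint (m : ℕ) 0 1 τ)

/-- Over `ℂ`: a polynomial relation holds among the `j(q^m)` iff it holds among the twists. -/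
theorem aeval_jdTwist_eq_zero_iff_complex [NeZero N] [NeZero ℓ] (hℓ : ℓ.Prime) (hN : ¬ ℓ ∣ N)
    (i : ℕ) (P : MvPolynomial (DivIdx (N * ℓ)) ℂ) :
    MvPolynomial.aeval (jdTwist (L := ℂ) (ModFun.zetaU ℓ ^ i)) P = 0 ↔
      MvPolynomial.aeval (jd ℂ (M := N * ℓ)) P = 0 := by
  obtain ⟨A, B, D, hdet, hD⟩ := exists_twisting_matrix hℓ hN i
  let γ : SL(2, ℤ) := ⟨!![A, B; (N : ℤ), D], by rw [Matrix.det_fin_two_of]; exact hdet⟩
  have hγ1 : γ 1 0 = (N : ℤ) := rfl
  have hγ2 : (ℓ : ℤ) ∣ γ 1 1 - i * N := hD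
  let T : DivIdx (N * ℓ) → ℍ → ℂ := fun m τ => jdFun m (γ • τ)
  have hsrc : ∀ m, ModFun.HasQExp 1 (jdFun m) (jd ℂ (M := N * ℓ) m) := fun m => by
    haveI := m.neZero
    exact ModFun.hasQExp_jfun.comp_mul (m : ℕ)
  have hsrcD : ∀ m : DivIdx (N * ℓ), MDiff (jdFun m) := fun m => by
    haveI := m.neZero
    exact mdiff_jfun_triPoint (m : ℕ) 0 1
  have hTD : ∀ m, MDiff (T m) := fun m => by
    haveI := m.neZero
    exact (hsrcD m).comp (UpperHalfPlane.mdifferentiable_smul
      (g := Matrix.SpecialLinearGroup.mapGL ℝ γ) (by simp))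
  have htgt : ∀ m, ModFun.HasQExp ℓ (T m) (jdTwist (ModFun.zetaU ℓ ^ i) m) := fun m => by
    haveI := m.neZero
    by_cases hm : ℓ ∣ (m : ℕ)
    · obtain ⟨d, hd⟩ := hm
      have hd' : (m : ℕ) = d * ℓ := by rw [hd, mul_comm]
      haveI : NeZero d := ⟨fun h0 => NeZero.ne (m : ℕ) (by rw [hd', h0, zero_mul])⟩
      have hdN : d ∣ N := by
        have := (Nat.mem_divisors.1 m.2).1
        rw [hd'] at this
        exact (Nat.mul_dvd_mul_iff_right (NeZero.pos ℓ)).1 this
      rw [jdTwist_of_eq_mul _ m d hd', twist_qExpand, ← pow_mul]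
      have hfun : T m = fun τ => ModFun.jfun (ModFun.triPoint d (d * i) ℓ τ) := funext fun τ => by
        rw [← (jfun_triPoint_smul i γ hγ1 hγ2 d hdN τ).2]
        show ModFun.jfun _ = ModFun.jfun _
        congr 1
        apply UpperHalfPlane.ext
        simp [ModFun.triPoint, hd']
      rw [hfun, ← modFun_twist_eq, mul_comm i d]
      exact ModFun.hasQExp_jfun.comp_triPoint d (d * i) ℓ
    · rw [jdTwist_of_not_dvd _ m hm]
      have hmN : (m : ℕ) ∣ N :=
        ((Nat.Prime.coprime_iff_not_dvd hℓ).2 hm).symm.dvd_of_dvd_mul_right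
          (Nat.mem_divisors.1 m.2).1
      have hfun : T m = jdFun m := funext fun τ =>
        (jfun_triPoint_smul i γ hγ1 hγ2 (m : ℕ) hmN τ).1
      rw [hfun, ← qExpand_qExpand]
      simpa [jd] using (hsrc m).expand_period ℓ
  constructor <;> intro h0
  · have hz : (fun τ => MvPolynomial.eval (fun m => T m τ) P) = 0 :=
      eq_zero_of_hasQExp_zero (mdiff_mvPolynomial hTD P)
        ((hasQExp_mvPolynomial htgt P).of_eq h0)
    refine (hasQExp_mvPolynomial hsrc P).unique ?_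
    rw [show (fun τ => MvPolynomial.eval (fun m : DivIdx (N * ℓ) => jdFun m τ) P) = 0 from
      funext fun τ => by
        have := congrFun hz (γ⁻¹ • τ)
        simpa [T, smul_inv_smul] using this]
    exact ModFun.HasQExp.zero
  · have hz : (fun τ => MvPolynomial.eval (fun m : DivIdx (N * ℓ) => jdFun m τ) P) = 0 :=
      eq_zero_of_hasQExp_zero (mdiff_mvPolynomial hsrcD P)
        ((hasQExp_mvPolynomial hsrc P).of_eq h0)
    refine (hasQExp_mvPolynomial htgt P).unique ?_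
    rw [show (fun τ => MvPolynomial.eval (fun m => T m τ) P) = 0 from
      funext fun τ => congrFun hz (γ • τ)]
    exact ModFun.HasQExp.zero

/-- Over `ℚ̄`: the twisted generators satisfy the same relations as the generators. -/
theorem aeval_jdTwist_eq_zero_iff [NeZero N] [NeZero ℓ] (hℓ : ℓ.Prime) (hN : ¬ ℓ ∣ N)
    (u : Qbarˣ) (hu : IsPrimitiveRoot (u : Qbar) ℓ) (a : ℕ)
    (P : MvPolynomial (DivIdx (N * ℓ)) Qbar) :
    MvPolynomial.aeval (jdTwist (L := Qbar) (u ^ a)) P = 0 ↔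
      MvPolynomial.aeval (jd Qbar (M := N * ℓ)) P = 0 := by
  let ι : Qbar →+* ℂ := (IsAlgClosed.lift : Qbar →ₐ[ℚ] ℂ).toRingHom
  have hinj : Function.Injective (coeffMap ι) := fun x y hxy => by
    ext k
    exact ι.injective (by simpa using congrArg (fun z : LaurentSeries ℂ => z.coeff k) hxy)
  obtain ⟨b, -, hb⟩ := (Complex.isPrimitiveRoot_exp ℓ hℓ.ne_zero).eq_pow_of_pow_eq_one
    ((hu.map_of_injective ι.injective).pow_eq_one)
  have hv : Units.map (ι : Qbar →* ℂ) (u ^ a) = ModFun.zetaU ℓ ^ (b * a) := Units.ext <| by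
    simp [ModFun.zetaU, pow_mul, hb]
  have hmap : ∀ X : DivIdx (N * ℓ) → LaurentSeries Qbar,
      coeffMap ι (MvPolynomial.aeval X P)
        = MvPolynomial.aeval (fun m => coeffMap ι (X m)) (MvPolynomial.map ι P) := fun X => by
    rw [MvPolynomial.aeval_def, MvPolynomial.eval₂_comp_left, MvPolynomial.aeval_def,
      MvPolynomial.eval₂_map]
    have hc : (coeffMap ι).comp (algebraMap Qbar (LaurentSeries Qbar))
        = (algebraMap ℂ (LaurentSeries ℂ)).comp ι := RingHom.ext fun c => by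
      simp [algebraMap_laurentSeries_eq_single]
    rw [hc]
    rfl
  rw [← map_eq_zero_iff _ hinj, hmap, ← map_eq_zero_iff _ hinj (x := MvPolynomial.aeval (jd Qbar) P),
    hmap]
  simp only [coeffMap_jd, coeffMap_jdTwist, hv]
  exact aeval_jdTwist_eq_zero_iff_complex hℓ hN (b * a) _

end Transfer

section Embedding

variable {N ℓ : ℕ} [NeZero N] [NeZero ℓ]

open scoped IntermediateField.algebraAdjoinAdjoin in
/-- The embedding of `L(j(q^m) : m ∣ Nℓ)` sending the generators to their twists. -/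
theorem exists_adjoinEmbedding (hℓ : ℓ.Prime) (hN : ¬ ℓ ∣ N) (u : Qbarˣ)
    (hu : IsPrimitiveRoot (u : Qbar) ℓ) (a : ℕ) :
    ∃ τ : IntermediateField.adjoin Qbar (Set.range (jd Qbar (M := N * ℓ)))
        →+* LaurentSeries Qbar,
      (∀ c : Qbar, τ (algebraMap Qbar _ c) = algebraMap Qbar (LaurentSeries Qbar) c) ∧
      ∀ m, τ ⟨jd Qbar m, IntermediateField.subset_adjoin Qbar _ ⟨m, rfl⟩⟩
        = jdTwist (u ^ a) m := by
  set S := Set.range (jd Qbar (M := N * ℓ))
  let f : MvPolynomial (DivIdx (N * ℓ)) Qbar →ₐ[Qbar] Algebra.adjoin Qbar S :=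
    (MvPolynomial.aeval (jd Qbar (M := N * ℓ))).codRestrict (Algebra.adjoin Qbar S) fun P => by
      show _ ∈ Algebra.adjoin Qbar (Set.range (jd Qbar (M := N * ℓ)))
      rw [Algebra.adjoin_range_eq_range_aeval]
      exact ⟨P, rfl⟩
  have hf : Function.Surjective f := fun x => by
    obtain ⟨P, hP⟩ := (Algebra.adjoin_range_eq_range_aeval Qbar (jd Qbar (M := N * ℓ))).le x.2
    exact ⟨P, Subtype.ext hP⟩
  let g : MvPolynomial (DivIdx (N * ℓ)) Qbar →+* LaurentSeries Qbar :=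
    (MvPolynomial.aeval (jdTwist (L := Qbar) (u ^ a))).toRingHom
  have hiff : ∀ P, g P = 0 ↔ f P = 0 := fun P =>
    (aeval_jdTwist_eq_zero_iff hℓ hN u hu a P).trans
      ⟨fun h => Subtype.ext h, fun h => congrArg Subtype.val h⟩
  let φ : Algebra.adjoin Qbar S →+* LaurentSeries Qbar :=
    f.toRingHom.liftOfSurjective hf ⟨g, fun P hP => (hiff P).2 hP⟩
  have hφ : ∀ P, φ (f P) = g P := fun P =>
    f.toRingHom.liftOfRightInverse_comp_apply _ _ ⟨g, fun P hP => (hiff P).2 hP⟩ P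
  have hinj : Function.Injective φ := by
    refine (injective_iff_map_eq_zero φ).2 fun x hx => ?_
    obtain ⟨P, rfl⟩ := hf x
    rw [hφ] at hx
    exact (hiff P).1 hx
  refine ⟨IsFractionRing.lift (K := IntermediateField.adjoin Qbar S) hinj, fun c => ?_,
    fun m => ?_⟩
  · rw [IsScalarTower.algebraMap_apply Qbar (Algebra.adjoin Qbar S),
      IsFractionRing.lift_algebraMap, ← f.commutes c, hφ]
    exact (MvPolynomial.aeval (jdTwist (L := Qbar) (u ^ a))).commutes c
  · have : (⟨jd Qbar m, IntermediateField.subset_adjoin Qbar _ ⟨m, rfl⟩⟩ :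
        IntermediateField.adjoin Qbar S)
        = algebraMap (Algebra.adjoin Qbar S) _ (f (MvPolynomial.X m)) :=
      Subtype.ext (MvPolynomial.aeval_X (jd Qbar (M := N * ℓ)) m).symm
    rw [this, IsFractionRing.lift_algebraMap, hφ]
    exact MvPolynomial.aeval_X _ m

/-- Two ring homomorphisms out of `F_N` agree as soon as they agree on constants and on the
generators `j(q^d)`. -/
theorem ringHom_bar_ext {M : ℕ} [NeZero M] {R : Type*} [Field R]
    {f g : modularFunctionFieldBar M →+* R}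
    (hc : ∀ c : Qbar, f (algebraMap Qbar _ c) = g (algebraMap Qbar _ c))
    (hgen : ∀ m : DivIdx M, f ⟨jd Qbar m, jd_mem_bar Qbar m⟩ = g ⟨jd Qbar m, jd_mem_bar Qbar m⟩) :
    f = g := by
  ext ⟨x, hx⟩
  have hx' := laurentBaseChange_full_le_adjoin Qbar M hx
  suffices H : ∀ z ∈ IntermediateField.adjoin Qbar (Set.range (jd Qbar (M := M))),
      ∀ hz : z ∈ modularFunctionFieldBar M, f ⟨z, hz⟩ = g ⟨z, hz⟩ from H x hx' hx
  intro z hz
  rw [← laurentBaseChange_full_eq_adjoin Qbar M] at hz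
  intro hz'
  suffices H : ∃ h : z ∈ modularFunctionFieldBar M, f ⟨z, h⟩ = g ⟨z, h⟩ from H.2
  have hz'' := laurentBaseChange_full_le_adjoin Qbar M hz
  clear hz hz' hx' hx
  induction hz'' using IntermediateField.adjoin_induction with
  | mem y hy => obtain ⟨m, rfl⟩ := hy; exact ⟨_, hgen m⟩
  | algebraMap c => exact ⟨(modularFunctionFieldBar M).algebraMap_mem c, hc c⟩
  | add y w _ _ hy hw =>
    obtain ⟨hy, ey⟩ := hy
    obtain ⟨hw, ew⟩ := hw
    refine ⟨add_mem hy hw, ?_⟩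
    rw [show (⟨y + w, add_mem hy hw⟩ : modularFunctionFieldBar M) = ⟨y, hy⟩ + ⟨w, hw⟩ from rfl,
      map_add, map_add, ey, ew]
  | inv y _ hy =>
    obtain ⟨hy, ey⟩ := hy
    refine ⟨inv_mem hy, ?_⟩
    rw [show (⟨y⁻¹, inv_mem hy⟩ : modularFunctionFieldBar M) = ⟨y, hy⟩⁻¹ from rfl,
      map_inv₀, map_inv₀, ey]
  | mul y w _ _ hy hw =>
    obtain ⟨hy, ey⟩ := hy
    obtain ⟨hw, ew⟩ := hw
    refine ⟨mul_mem hy hw, ?_⟩
    rw [show (⟨y * w, mul_mem hy hw⟩ : modularFunctionFieldBar M) = ⟨y, hy⟩ * ⟨w, hw⟩ from rfl,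
      map_mul, map_mul, ey, ew]

theorem twist_algebraMap {L : Type*} [Field L] (u : Lˣ) (c : L) :
    twist u (algebraMap L (LaurentSeries L) c) = algebraMap L (LaurentSeries L) c := by
  ext n
  rw [algebraMap_laurentSeries_eq_single, twist_coeff]
  rcases eq_or_ne n 0 with rfl | hn
  · simp
  · simp [HahnSeries.coeff_single_of_ne hn]

/-- **The `ℓ` twisted embeddings** of `F_{Nℓ}` into `ℚ̄((q^{1/ℓ}))`: on `α F_N` they are the
identity (`q = t^ℓ`), and `f(ℓτ) ↦ f((τ + a)/ℓ)`. -/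
theorem exists_twistEmbedding (hℓ : ℓ.Prime) (hN : ¬ ℓ ∣ N) (u : Qbarˣ)
    (hu : IsPrimitiveRoot (u : Qbar) ℓ) (a : ℕ) :
    ∃ τ : modularFunctionFieldBar (N * ℓ) →+* LaurentSeries Qbar,
      (∀ x : modularFunctionFieldBar N,
        τ (heckeAlphaBar Qbar N ℓ x) = qExpand Qbar ℓ (x : LaurentSeries Qbar)) ∧
      (∀ x : modularFunctionFieldBar N,
        τ (heckeBetaBar Qbar N ℓ x) = twist (u ^ a) (x : LaurentSeries Qbar)) := by
  obtain ⟨σ, hσc, hσm⟩ := exists_adjoinEmbedding hℓ hN u hu a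
  let incl := IntermediateField.inclusion (laurentBaseChange_full_le_adjoin Qbar (N * ℓ))
  let τ : modularFunctionFieldBar (N * ℓ) →+* LaurentSeries Qbar := σ.comp incl.toRingHom
  have hτc : ∀ c : Qbar, τ (algebraMap Qbar _ c) = algebraMap Qbar _ c := fun c => by
    show σ (incl (algebraMap Qbar _ c)) = _
    rw [incl.commutes, hσc]
  refine ⟨τ, fun x => ?_, fun x => ?_⟩
  · suffices H : τ.comp (heckeAlphaBar Qbar N ℓ).toRingHom
        = (qExpand Qbar ℓ).comp (modularFunctionFieldBar N).val.toRingHom from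
      RingHom.congr_fun H x
    refine ringHom_bar_ext (fun c => ?_) (fun d => ?_)
    · show τ (heckeAlphaBar Qbar N ℓ (algebraMap Qbar _ c))
        = qExpand Qbar ℓ (algebraMap Qbar (LaurentSeries Qbar) c)
      rw [AlgHom.commutes, hτc, algebraMap_laurentSeries_eq_single, qExpand_single, mul_zero]
    · haveI := d.neZero
      let m : DivIdx (N * ℓ) := ⟨d, Nat.mem_divisors.2
        ⟨(Nat.mem_divisors.1 d.2).1.mul_right ℓ, mul_ne_zero (NeZero.ne N) (NeZero.ne ℓ)⟩⟩
      haveI := m.neZero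
      show σ _ = qExpand Qbar ℓ (jd Qbar d)
      have hm : ¬ ℓ ∣ (m : ℕ) := fun h => hN (h.trans (Nat.mem_divisors.1 d.2).1)
      refine (congrArg σ (Subtype.ext rfl)).trans ((hσm m).trans ?_)
      rw [jdTwist_of_not_dvd _ m hm, jd, qExpand_qExpand]
  · suffices H : τ.comp (heckeBetaBar Qbar N ℓ).toRingHom
        = (twist (u ^ a)).comp (modularFunctionFieldBar N).val.toRingHom from
      RingHom.congr_fun H x
    refine ringHom_bar_ext (fun c => ?_) (fun d => ?_)
    · show τ (heckeBetaBar Qbar N ℓ (algebraMap Qbar _ c))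
        = twist (u ^ a) (algebraMap Qbar (LaurentSeries Qbar) c)
      rw [AlgHom.commutes, hτc, twist_algebraMap]
    · haveI := d.neZero
      let m : DivIdx (N * ℓ) := ⟨(d : ℕ) * ℓ, Nat.mem_divisors.2
        ⟨Nat.mul_dvd_mul_right (Nat.mem_divisors.1 d.2).1 ℓ,
          mul_ne_zero (NeZero.ne N) (NeZero.ne ℓ)⟩⟩
      haveI := m.neZero
      show σ _ = twist (u ^ a) (jd Qbar d)
      refine (congrArg σ (Subtype.ext ?_)).trans
        ((hσm m).trans (jdTwist_of_eq_mul _ m (d : ℕ) rfl))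
      show qExpand Qbar ℓ (qExpand Qbar (d : ℕ) (jqModC Qbar))
        = qExpand Qbar (m : ℕ) (jqModC Qbar)
      rw [qExpand_qExpand]
      exact qExpand_congr (mul_comm _ _) _

end Embedding

end Fermat.Agent.EichlerShimura
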