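/-
The q-expansion identity behind the Eichler–Shimura congruence relation:
the norm of `β f` along `α : F_N → F_{Nℓ}` and its reduction modulo `ℓ`.
-/
import Fermat.Agent.ES.IdentityEmbedding
import Fermat.Prelude.Def_ModularCurve_X0ModL
import Mathlib.RingTheory.Norm.Transitivity
import Mathlib.RingTheory.RootsOfUnity.PrimitiveRoots
import Mathlib.FieldTheory.IsAlgClosed.AlgebraicClosure

set_option autoImplicit false
set_option linter.style.haveILetI false

noncomputable section

open ModularCurve AlgebraicCurve HahnSeries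

namespace Fermat.Agent.EichlerShimura

local notation "Qbar" => AlgebraicClosure ℚ

variable (N ℓ : ℕ) [NeZero N] [NeZero ℓ]

/-- The norm of `X₀(Nℓ) → X₀(N)` (along `heckeAlphaBar`) on functions. -/
def normAlpha (x : modularFunctionFieldBar (N * ℓ)) : modularFunctionFieldBar N :=
  letI := algebraAlong (heckeAlphaBar Qbar N ℓ)
  Algebra.norm (modularFunctionFieldBar N) x

variable {N ℓ}

section NormLemma

/-- The norm is the product over any family of embeddings as numerous as the degree. -/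
theorem norm_eq_prod_of_embeddings {F F' E : Type*} [Field F] [Field F'] [Field E] [Algebra F F']
    [CharZero F] [FiniteDimensional F F'] [Algebra F E] [IsAlgClosed E] {ι : Type*} [Fintype ι]
    (e : ι → (F' →ₐ[F] E)) (he : Function.Injective e)
    (hdeg : Module.finrank F F' ≤ Fintype.card ι) (x : F') :
    algebraMap F E (Algebra.norm F x) = ∏ i, e i x := by
  haveI : Algebra.IsSeparable F F' := Algebra.IsAlgebraic.isSeparable_of_perfectField
  have hcard : Fintype.card (F' →ₐ[F] E) = Module.finrank F F' := AlgHom.card F F' E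
  have hbij : Function.Bijective e := (Fintype.bijective_iff_injective_and_card e).2
    ⟨he, le_antisymm (Fintype.card_le_of_injective e he) (hcard ▸ hdeg)⟩
  rw [Algebra.norm_eq_prod_embeddings]
  exact (Fintype.prod_bijective e hbij _ _ fun i => rfl).symm

/-- Abstract form: the norm along `φ` is computed by enough embeddings into a field `S`. -/
theorem map_norm_along_eq_prod {K F F' S : Type*} [Field K] [Field F] [Field F'] [Field S]
    [Algebra K F] [Algebra K F'] [CharZero F] (φ : F →ₐ[K] F') (hfin : FiniteAlong K φ)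
    (ι₀ : F →+* S) {I : Type*} [Fintype I] (e : I → (F' →+* S))
    (hcomm : ∀ i z, e i (φ z) = ι₀ z) (w : F') (hinj : Function.Injective fun i => e i w)
    (hdeg : finrankAlong K φ ≤ Fintype.card I) (x : F') :
    ι₀ (letI := algebraAlong φ; Algebra.norm F x) = ∏ i, e i x := by
  letI := algebraAlong φ
  haveI : FiniteDimensional F F' := hfin
  let c : S →+* AlgebraicClosure S := algebraMap S (AlgebraicClosure S)
  letI : Algebra F (AlgebraicClosure S) := (c.comp ι₀).toAlgebra
  let e' : I → (F' →ₐ[F] AlgebraicClosure S) := fun i =>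
    { toRingHom := c.comp (e i)
      commutes' := fun z => congrArg c (hcomm i z) }
  have he' : Function.Injective e' := fun i j h =>
    hinj (c.injective (DFunLike.congr_fun h w))
  apply c.injective
  rw [map_prod]
  exact norm_eq_prod_of_embeddings e' he' hdeg x

end NormLemma

theorem coeff_twist_jq_neg_one {L : Type*} [CommRing L] (u : Lˣ) :
    (twist u (jqModC L)).coeff (-1) = ((u⁻¹ : Lˣ) : L) := by
  rw [twist_coeff, coeff_jqModC_neg_one, mul_one, zpow_neg_one]

theorem twist_pow_injective {L : Type*} [CommRing L] (u : Lˣ) (hu : IsPrimitiveRoot (u : L) ℓ)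
    {a b : Fin ℓ} (h : twist (u ^ (a : ℕ)) (jqModC L) = twist (u ^ (b : ℕ)) (jqModC L)) : a = b := by
  have h1 := congrArg (fun z : LaurentSeries L => z.coeff (-1)) h
  simp only [coeff_twist_jq_neg_one] at h1
  have h2 : u ^ (a : ℕ) = u ^ (b : ℕ) := inv_injective (Units.ext h1)
  exact Fin.ext (hu.pow_inj a.2 b.2 (by simpa using congrArg Units.val h2))

/-- **Norm formula**: `N_α(f(ℓτ)) = f(ℓτ) · ∏ f((τ+a)/ℓ)`. -/
theorem qExpand_normAlpha_heckeBeta (hℓ : ℓ.Prime) (hN : ¬ ℓ ∣ N)
    (hfin : FiniteAlong Qbar (heckeAlphaBar Qbar N ℓ))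
    (hdeg : finrankAlong Qbar (heckeAlphaBar Qbar N ℓ) ≤ ℓ + 1)
    (u : Qbarˣ) (hu : IsPrimitiveRoot (u : Qbar) ℓ) (x : modularFunctionFieldBar N) :
    qExpand Qbar ℓ (normAlpha N ℓ (heckeBetaBar Qbar N ℓ x) : LaurentSeries Qbar)
      = qExpand Qbar (ℓ * ℓ) (x : LaurentSeries Qbar)
        * ∏ a ∈ Finset.range ℓ, twist (u ^ a) (x : LaurentSeries Qbar) := by
  choose τ hτα hτβ using fun a : Fin ℓ => exists_twistEmbedding hℓ hN u hu (a : ℕ)
  let gN : modularFunctionFieldBar N →+* LaurentSeries Qbar :=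
    (qExpand Qbar ℓ).comp (modularFunctionFieldBar N).val.toRingHom
  let gNℓ : modularFunctionFieldBar (N * ℓ) →+* LaurentSeries Qbar :=
    (qExpand Qbar ℓ).comp (modularFunctionFieldBar (N * ℓ)).val.toRingHom
  have hgα : ∀ z : modularFunctionFieldBar N, gNℓ (heckeAlphaBar Qbar N ℓ z) = gN z :=
    fun z => congrArg (qExpand Qbar ℓ) (coe_heckeAlphaBar N ℓ z)
  let e : Option (Fin ℓ) → (modularFunctionFieldBar (N * ℓ) →+* LaurentSeries Qbar) :=
    fun o => o.elim gNℓ τ
  have hsome : ∀ a (z : modularFunctionFieldBar N),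
      e (some a) (heckeBetaBar Qbar N ℓ z) = twist (u ^ (a : ℕ)) (z : LaurentSeries Qbar) := hτβ
  have hnone : ∀ z : modularFunctionFieldBar N,
      e none (heckeBetaBar Qbar N ℓ z) = qExpand Qbar (ℓ * ℓ) (z : LaurentSeries Qbar) :=
    fun z => (congrArg (qExpand Qbar ℓ) (coe_heckeBetaBar N ℓ z)).trans
      (qExpand_qExpand (R := Qbar) ℓ ℓ (z : LaurentSeries Qbar))
  let z₀ : modularFunctionFieldBar N :=
    ⟨jd Qbar ⟨1, Nat.one_mem_divisors.2 (NeZero.ne N)⟩, jd_mem_bar Qbar _⟩
  have hz₀ : (z₀ : LaurentSeries Qbar) = jqModC Qbar := qExpand_one_apply _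
  have hne : ∀ a : Fin ℓ, qExpand Qbar (ℓ * ℓ) (jqModC Qbar)
      ≠ twist (u ^ (a : ℕ)) (jqModC Qbar) := fun a h => by
    have h1 := congrArg (fun z : LaurentSeries Qbar => z.coeff (-1)) h
    simp only [coeff_twist_jq_neg_one] at h1
    rw [qExpand_coeff_of_not_dvd] at h1
    · exact Units.ne_zero _ h1.symm
    · rw [dvd_neg]
      intro hdvd
      have h3 : ℓ * ℓ ∣ 1 := by exact_mod_cast hdvd
      have := Nat.le_of_dvd one_pos h3
      nlinarith [hℓ.two_le]
  have he : Function.Injective fun o => e o (heckeBetaBar Qbar N ℓ z₀) := by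
    intro o o' h
    rcases o with _ | a <;> rcases o' with _ | b
    · rfl
    · simp only [hnone, hsome, hz₀] at h
      exact absurd h (hne b)
    · simp only [hnone, hsome, hz₀] at h
      exact absurd h.symm (hne a)
    · simp only [hsome, hz₀] at h
      exact congrArg some (twist_pow_injective u hu h)
  have key := map_norm_along_eq_prod (heckeAlphaBar Qbar N ℓ) hfin gN e
    (fun o => match o with
      | none => hgα
      | some a => hτα a)
    (heckeBetaBar Qbar N ℓ z₀) he (by rw [Fintype.card_option, Fintype.card_fin]; exact hdeg)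
    (heckeBetaBar Qbar N ℓ x)
  rw [Fintype.prod_option, hnone] at key
  simp only [hsome] at key
  rw [Fin.prod_univ_eq_prod_range (fun a => twist (u ^ a) (x : LaurentSeries Qbar)) ℓ] at key
  exact key

/-- **Reduction of the norm**: `N_α(f(ℓτ)) ≡ f^φ(q) · f(q^ℓ)` modulo `ℓ`. -/
theorem exists_integral_normAlpha_heckeBeta (hℓ : ℓ.Prime) (hN : ¬ ℓ ∣ N)
    (hfin : FiniteAlong Qbar (heckeAlphaBar Qbar N ℓ))
    (hdeg : finrankAlong Qbar (heckeAlphaBar Qbar N ℓ) ≤ ℓ + 1)
    (A : ValuationSubring Qbar) {k : Type*} [Field k] [hp : Fact ℓ.Prime] [CharP k ℓ]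
    (π : A →+* k) (y : LaurentSeries A) (hy : coeffMap A.subtype y ∈ modularFunctionFieldBar N) :
    ∃ z : LaurentSeries A,
      coeffMap A.subtype z
        = (normAlpha N ℓ (heckeBetaBar Qbar N ℓ ⟨coeffMap A.subtype y, hy⟩) :
            LaurentSeries Qbar) ∧
      qExpand k ℓ (coeffMap π z) = qExpand k (ℓ * ℓ) (coeffMap π y) * (coeffMap π y) ^ ℓ ∧
      coeffMap π z = coeffMap (frobenius k ℓ) (coeffMap π y) * qExpand k ℓ (coeffMap π y) := by
  obtain ⟨ζ, hζ⟩ := HasEnoughRootsOfUnity.exists_primitiveRoot (M := Qbar) (n := ℓ)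
  have hζA : ζ ∈ A := by
    rcases A.mem_or_inv_mem ζ with h | h
    · exact h
    · have hp1 : ζ⁻¹ ^ (ℓ - 1) = ζ := by
        rw [inv_pow]
        refine inv_eq_of_mul_eq_one_left ?_
        rw [← pow_succ', Nat.sub_add_cancel (NeZero.pos ℓ), hζ.pow_eq_one]
      exact hp1 ▸ pow_mem h _
  have hζA' : IsPrimitiveRoot (⟨ζ, hζA⟩ : A) ℓ :=
    IsPrimitiveRoot.of_map_of_injective (f := A.subtype) hζ Subtype.coe_injective
  let uA : Aˣ := (hζA'.isUnit (NeZero.ne ℓ)).unit
  have huA : (uA : A) = ⟨ζ, hζA⟩ := IsUnit.unit_spec _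
  let u : Qbarˣ := Units.map (A.subtype : A →* Qbar) uA
  have hu : IsPrimitiveRoot (u : Qbar) ℓ := by
    show IsPrimitiveRoot ((uA : A) : Qbar) ℓ
    rw [huA]
    exact hζ
  have hπu : Units.map (π : A →* k) uA = 1 := Units.ext <| by
    show π (uA : A) = 1
    have hpow : π (uA : A) ^ ℓ = 1 ^ ℓ := by
      rw [← map_pow, huA, hζA'.pow_eq_one, map_one, one_pow]
    haveI : ExpChar k ℓ := ExpChar.prime hp.out
    exact frobenius_inj k ℓ hpow
  set G : LaurentSeries A := qExpand A (ℓ * ℓ) y * ∏ a ∈ Finset.range ℓ, twist (uA ^ a) y with hG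
  have hG1 : coeffMap A.subtype G = qExpand Qbar ℓ
      (normAlpha N ℓ (heckeBetaBar Qbar N ℓ ⟨coeffMap A.subtype y, hy⟩) : LaurentSeries Qbar) := by
    rw [qExpand_normAlpha_heckeBeta hℓ hN hfin hdeg u hu, hG, map_mul, map_prod, coeffMap_qExpand]
    congr 1
    refine Finset.prod_congr rfl fun a _ => ?_
    rw [coeffMap_twist, map_pow]
  obtain ⟨z, hz, hGz⟩ := exists_eq_qExpand_of_coeffMap_eq Subtype.coe_injective ℓ hG1
  have hk : qExpand k ℓ (coeffMap π z)
      = qExpand k (ℓ * ℓ) (coeffMap π y) * (coeffMap π y) ^ ℓ := by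
    rw [← coeffMap_qExpand, ← hGz, hG, map_mul, map_prod, coeffMap_qExpand]
    congr 1
    calc ∏ a ∈ Finset.range ℓ, coeffMap π (twist (uA ^ a) y)
        = ∏ a ∈ Finset.range ℓ, coeffMap π y := Finset.prod_congr rfl fun a _ => by
          rw [coeffMap_twist, map_pow, hπu, one_pow, twist_one]
      _ = coeffMap π y ^ ℓ := by rw [Finset.prod_const, Finset.card_range]
  refine ⟨z, hz, hk, qExpand_injective ℓ ?_⟩
  rw [hk, map_mul, ← pow_char_eq_qExpand, qExpand_qExpand, mul_comm]

end Fermat.Agent.EichlerShimura
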