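/-
Effectivity of pull back, push forward and correspondences of divisors.
-/
import Fermat.Agent.ES.SpecialDivisor

set_option autoImplicit false

noncomputable section

open AlgebraicCurve

namespace Fermat.Agent.ES

variable {K F F' : Type*} [Field K] [Field F] [Field F'] [Algebra K F] [Algebra K F']

theorem pullbackAlong_nonneg [HasPrincipalDivisors K F'] (φ : F →ₐ[K] F')
    (hφ : φ.toRingHom.IsIntegral) {D : Divisor K F} (hD : 0 ≤ D) :
    0 ≤ Divisor.pullbackAlong φ hφ D := fun w => by
  rw [Divisor.pullbackAlong_apply]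
  exact mul_nonneg (Int.natCast_nonneg _) (hD _)

theorem pushforwardAlong_nonneg (φ : F →ₐ[K] F')
    (hφ : φ.toRingHom.IsIntegral) {D : Divisor K F'} (hD : 0 ≤ D) :
    0 ≤ Divisor.pushforwardAlong φ hφ D := by
  conv_rhs => rw [← Finsupp.sum_single D, map_finsuppSum]
  refine Finsupp.sum_nonneg fun w _ => ?_
  rw [Divisor.pushforwardAlong_single]
  intro v
  classical
  rw [Finsupp.zero_apply, Finsupp.single_apply]
  split_ifs
  · exact mul_nonneg (hD w) (Int.natCast_nonneg _)
  · exact le_rfl

theorem correspondence_nonneg [HasPrincipalDivisors K F'] (φ ψ : F →ₐ[K] F')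
    (hφ : φ.toRingHom.IsIntegral) (hψ : ψ.toRingHom.IsIntegral) {D : Divisor K F} (hD : 0 ≤ D) :
    0 ≤ Divisor.correspondence φ ψ hφ hψ D := by
  rw [Divisor.correspondence_apply]
  exact pushforwardAlong_nonneg ψ hψ (pullbackAlong_nonneg φ hφ hD)

/-- The divisor of the norm: a correspondence maps `div f` to `div (N (φ f))`. -/
theorem correspondence_apply_principal [HasPrincipalDivisors K F'] (φ ψ : F →ₐ[K] F')
    (hφ : φ.toRingHom.IsIntegral) (hψ : ψ.toRingHom.IsIntegral) (hfin : FiniteAlong K ψ)
    (hN : NormFormulaAlong K ψ hfin) {f : F} (hf : f ≠ 0) {D : Divisor K F}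
    (hD : ∀ v, D v = v.ord f) (v : Place K F) :
    Divisor.correspondence φ ψ hφ hψ D v =
      v.ord (letI := algebraAlong ψ; Algebra.norm F (φ f)) := by
  have hpb : ∀ w, Divisor.pullbackAlong φ hφ D w = w.ord (φ f) := fun w => by
    rw [Divisor.pullbackAlong_apply, hD, Place.ord_restrictAlong φ hφ]
  letI := algebraAlong ψ
  haveI := isScalarTower_along ψ
  haveI := isIntegral_along ψ hψ
  haveI : Module.Finite F F' := hfin
  exact hN (φ f) (fun h => hf (φ.toRingHom.injective (h.trans (map_zero _).symm))) _ hpb v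

end Fermat.Agent.ES
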