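/-
The Eichler–Shimura congruence relation on `J₀(N)` and its reduction:
`sp ∘ T_ℓ = (φ + ℓ φ⁻¹) ∘ sp`.
-/
import Fermat.Agent.ES.SpecialCorr
import Fermat.Agent.ES.SpecialGalois
import Fermat.Agent.ES.IdentityNorm
import Fermat.Agent.HeckeJ.Operator

set_option autoImplicit false

noncomputable section

open AlgebraicCurve ModularCurve HahnSeries

namespace Fermat.Agent.ES

variable {N : ℕ} [NeZero N] (A : ValuationSubring (AlgebraicClosure ℚ)) {ℓ : ℕ}

theorem charP_residueField (hℓ : ℓ.Prime) (hA : A.LiesOverPrime ℓ) :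
    CharP (IsLocalRing.ResidueField A) ℓ := by
  rw [CharP.charP_iff_prime_eq_zero hℓ]
  have hmem : (ℓ : A) ∈ IsLocalRing.maximalIdeal A := by
    have h : ((ℓ : A) : AlgebraicClosure ℚ) ∈ A.nonunits := by
      simpa [ValuationSubring.LiesOverPrime] using hA
    exact ValuationSubring.coe_mem_nonunits_iff.mp h
  rw [← map_natCast (IsLocalRing.residue A) ℓ]
  exact (IsLocalRing.residue_eq_zero_iff _).mpr hmem

/-- The congruence relation on divisors of degree zero. -/
theorem mapDomain_hecke (hℓ : ℓ.Prime) (hN : ¬ ℓ ∣ N) (hA : A.LiesOverPrime ℓ) [NeZero ℓ]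
    (hdeg : finrankAlong (AlgebraicClosure ℚ) (heckeAlphaBar (AlgebraicClosure ℚ) N ℓ) ≤ ℓ + 1)
    (hX : CurveFacts N)
    {r : Place (AlgebraicClosure ℚ) (modularFunctionFieldBar N) →
      Place (IsLocalRing.ResidueField A)
        (modularFunctionFieldFullC (IsLocalRing.ResidueField A) N)}
    (hr : IsPlaceReductionModL A N r)
    (hgen : PrincipalGeneratedByIntegral A (IsLocalRing.residue A) N)
    (s : IsLocalRing.ResidueField A ≃+* IsLocalRing.ResidueField A) (hs : ∀ x, s x = x ^ ℓ)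
    {D : Divisor (AlgebraicClosure ℚ) (modularFunctionFieldBar N)}
    (hD : D ∈ Divisor.degZero (K := AlgebraicClosure ℚ) (F := modularFunctionFieldBar N)) :
    Finsupp.mapDomain r (HeckeJ.heckeDiv (AlgebraicClosure ℚ) N ℓ D) =
      coeffAut N s • Finsupp.mapDomain r D +
        (ℓ : ℤ) • ((coeffAut N s)⁻¹ • Finsupp.mapDomain r D) := by
  haveI := hX.hasPrincipalDivisors
  haveI : Fact ℓ.Prime := ⟨hℓ⟩
  haveI := charP_residueField A hℓ hA
  haveI := HeckeJ.hasPrincipalDivisors_laurentBaseChange (AlgebraicClosure ℚ) (N * ℓ)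
  set g := coeffAut N s with hg
  set T := HeckeJ.heckeDiv (AlgebraicClosure ℚ) N ℓ with hT
  let δ : Divisor (AlgebraicClosure ℚ) (modularFunctionFieldBar N) →+
      Divisor (IsLocalRing.ResidueField A)
        (modularFunctionFieldFullC (IsLocalRing.ResidueField A) N) :=
    (Finsupp.mapDomain.addMonoidHom r).comp T -
      ((DistribSMul.toAddMonoidHom _ g).comp (Finsupp.mapDomain.addMonoidHom r) +
        (ℓ : ℤ) • (DistribSMul.toAddMonoidHom _ g⁻¹).comp (Finsupp.mapDomain.addMonoidHom r))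
  have hδ : ∀ E, δ E = Finsupp.mapDomain r (T E) -
      (g • Finsupp.mapDomain r E + (ℓ : ℤ) • (g⁻¹ • Finsupp.mapDomain r E)) :=
    fun E => rfl
  have hsfrob : (s : IsLocalRing.ResidueField A →+* IsLocalRing.ResidueField A) =
      frobenius (IsLocalRing.ResidueField A) ℓ :=
    RingHom.ext fun x => hs x
  have hint : ∀ E ∈ integralPrincipalDivisors A (IsLocalRing.residue A) N, δ E = 0 := by
    rintro E ⟨y, hy, hyk, hne, hE⟩
    rw [hδ, sub_eq_zero]
    obtain ⟨z, hz, -, hzk⟩ := EichlerShimura.exists_integral_normAlpha_heckeBeta hℓ hN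
      (HeckeJ.finiteAlong_heckeAlphaBar (AlgebraicClosure ℚ) N ℓ) hdeg A (IsLocalRing.residue A)
      y hy
    set f : modularFunctionFieldBar N := ⟨coeffMap A.subtype y, hy⟩ with hf
    set yb : modularFunctionFieldFullC (IsLocalRing.ResidueField A) N :=
      ⟨coeffMap (IsLocalRing.residue A) y, hyk⟩ with hyb
    have hyb0 : yb ≠ 0 := fun h => hne (congrArg Subtype.val h)
    have hf0 : f ≠ 0 := by
      intro h
      apply hne
      ext n
      have h1 := congrArg (fun x : modularFunctionFieldBar N =>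
        (x : LaurentSeries (AlgebraicClosure ℚ)).coeff n) h
      simp only [hf, coeffMap_coeff, ZeroMemClass.coe_zero, HahnSeries.coeff_zero] at h1
      rw [coeffMap_coeff, show y.coeff n = 0 from Subtype.ext h1, map_zero]
      rfl
    have hfac : coeffMap (IsLocalRing.residue A) z =
        (((g • yb) * (g⁻¹ • yb) ^ ℓ : modularFunctionFieldFullC (IsLocalRing.ResidueField A) N) :
          LaurentSeries (IsLocalRing.ResidueField A)) := by
      rw [hzk, IntermediateField.coe_mul, IntermediateField.coe_pow, hg, coe_coeffAut_smul, hsfrob,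
        pow_char_eq ℓ]
      congr 2
      ext n
      show (coeffMap (IsLocalRing.residue A) y).coeff n =
        frobenius _ ℓ (s.symm ((coeffMap (IsLocalRing.residue A) y).coeff n))
      rw [← hsfrob]
      exact (s.apply_symm_apply _).symm
    have hzF : coeffMap A.subtype z ∈ modularFunctionFieldBar N := by
      rw [hz]; exact Subtype.coe_prop _
    have hzk' : coeffMap (IsLocalRing.residue A) z ∈
        modularFunctionFieldFullC (IsLocalRing.ResidueField A) N := by
      rw [hfac]; exact Subtype.coe_prop _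
    have hprod : (g • yb) * (g⁻¹ • yb) ^ ℓ ≠ 0 :=
      mul_ne_zero ((smul_ne_zero_iff_ne g).mpr hyb0) (pow_ne_zero _ ((smul_ne_zero_iff_ne g⁻¹).mpr hyb0))
    have hzne : coeffMap (IsLocalRing.residue A) z ≠ 0 := by
      rw [hfac]
      exact fun h => hprod (Subtype.ext h)
    have hTE : ∀ P, T E P = P.ord (⟨coeffMap A.subtype z, hzF⟩ : modularFunctionFieldBar N) := by
      intro P
      refine (correspondence_apply_principal _ _ _ _
        (HeckeJ.finiteAlong_heckeAlphaBar (AlgebraicClosure ℚ) N ℓ)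
        (HeckeJ.normFormulaAlong_heckeAlphaBar (AlgebraicClosure ℚ) N ℓ) hf0 hE P).trans ?_
      exact congrArg P.ord (Subtype.ext hz.symm)
    ext Q
    rw [hr.2 z hzF hzk' hzne _ hTE Q,
      show (⟨coeffMap (IsLocalRing.residue A) z, hzk'⟩ :
        modularFunctionFieldFullC (IsLocalRing.ResidueField A) N) = (g • yb) * (g⁻¹ • yb) ^ ℓ from
        Subtype.ext hfac,
      Q.ord_mul ((smul_ne_zero_iff_ne g).mpr hyb0) (pow_ne_zero _ ((smul_ne_zero_iff_ne g⁻¹).mpr hyb0)),
      ← zpow_natCast (g⁻¹ • yb) ℓ, Q.ord_zpow, Finsupp.add_apply, Finsupp.smul_apply, smul_eq_mul,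
      SemilinearAut.divisor_smul_apply, SemilinearAut.divisor_smul_apply,
      hr.2 y hy hyk hne _ hE, hr.2 y hy hyk hne _ hE]
    congr 1
    · have h := SemilinearAut.ord_smul g (g⁻¹ • Q) yb
      rwa [smul_inv_smul] at h
    · congr 1
      have h := SemilinearAut.ord_smul g⁻¹ (g⁻¹⁻¹ • Q) yb
      rwa [smul_inv_smul] at h
  have hprin : ∀ E ∈ Divisor.principal (K := AlgebraicClosure ℚ) (F := modularFunctionFieldBar N),
      δ E = 0 := by
    intro E hE
    exact (AddSubgroup.closure_le δ.ker).mpr (fun E' hE' => hint E' hE') (hgen hE)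
  have hbd : ∀ E : Divisor (AlgebraicClosure ℚ) (modularFunctionFieldBar N), 0 ≤ E →
      ∀ Q, |δ E Q| ≤ ((finrankAlong (AlgebraicClosure ℚ)
        (heckeBetaBar (AlgebraicClosure ℚ) N ℓ) : ℤ) + (1 + ℓ)) * Divisor.degree E := by
    intro E hE Q
    have h1 := mapDomain_apply_le hX.deg_eq_one r (E := T E)
      (correspondence_nonneg _ _ _ _ hE) Q
    have hdegT : Divisor.degree (T E) = (finrankAlong (AlgebraicClosure ℚ)
        (heckeBetaBar (AlgebraicClosure ℚ) N ℓ) : ℤ) * Divisor.degree E :=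
      Divisor.degree_correspondence _ _ _ _
        (HeckeJ.fundamentalIdentityAlong_heckeBetaBar (AlgebraicClosure ℚ) N ℓ) E
    rw [hdegT] at h1
    have h2 := mapDomain_apply_le hX.deg_eq_one r hE (g⁻¹ • Q)
    have h3 := mapDomain_apply_le hX.deg_eq_one r hE (g⁻¹⁻¹ • Q)
    have h4 : 0 ≤ (ℓ : ℤ) := Int.natCast_nonneg _
    rw [hδ, Finsupp.sub_apply, Finsupp.add_apply, Finsupp.smul_apply, smul_eq_mul,
      SemilinearAut.divisor_smul_apply, SemilinearAut.divisor_smul_apply, abs_le]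
    constructor <;> nlinarith [h1.1, h1.2, h2.1, h2.2, mul_le_mul_of_nonneg_left h3.1 h4,
      mul_le_mul_of_nonneg_left h3.2 h4]
  have h := eq_zero_of_mem_degZero hX.deg_eq_one hX.hasEffectiveRep δ hprin hbd hD
  rwa [hδ, sub_eq_zero] at h

/-- **The congruence relation**: `sp (T_ℓ x) = φ (sp x) + ℓ φ⁻¹ (sp x)`. -/
theorem reductionModL_hecke (hℓ : ℓ.Prime) (hN : ¬ ℓ ∣ N) (hA : A.LiesOverPrime ℓ) [NeZero ℓ]
    (hdeg : finrankAlong (AlgebraicClosure ℚ) (heckeAlphaBar (AlgebraicClosure ℚ) N ℓ) ≤ ℓ + 1)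
    (hX : CurveFacts N) (h : ReductionInputsModL A N)
    (s : IsLocalRing.ResidueField A ≃+* IsLocalRing.ResidueField A) (hs : ∀ x, s x = x ^ ℓ)
    (x : JZero N) :
    reductionModL A N (heckeOperatorBar N ⟨ℓ, hℓ⟩ x) =
      coeffAut N s • reductionModL A N x +
        (ℓ : ℤ) • ((coeffAut N s)⁻¹ • reductionModL A N x) := by
  obtain ⟨D, rfl⟩ := Pic0.mk_surjective x
  rw [HeckeJ.heckeOperatorBar_mk, reductionModL_mk h, reductionModL_mk h,
    SemilinearAut.pic0_smul_mk, SemilinearAut.pic0_smul_mk]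
  refine (congrArg Pic0.mk (Subtype.ext ?_)).trans (Pic0.mk_add _ _) |>.trans
    (congrArg _ (QuotientAddGroup.mk_zsmul _ _ _))
  exact mapDomain_hecke A hℓ hN hA hdeg hX h.choose_spec.1 h.choose_spec.2 s hs D.2

end Fermat.Agent.ES
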