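/-
The degree of `X₀(Nℓ) → X₀(N)` along `α` is at most `ℓ + 1`.
-/
import Fermat.Agent.ModFun.Field
import Fermat.Agent.Gamma0.PsiIdentity
import Fermat.Prelude.Def_ModularCurve_HeckeOperator
import Mathlib.FieldTheory.Relrank

set_option autoImplicit false

noncomputable section

open AlgebraicCurve ModularCurve IntermediateField

namespace Fermat.Agent.ES

theorem laurentBaseChange_le_mul (L : Type*) [Field L] [CharZero L] [Algebra ℚ L]
    (N ℓ : ℕ) [NeZero N] [NeZero ℓ] :
    laurentBaseChange L (modularFunctionFieldFull N) ≤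
      laurentBaseChange L (modularFunctionFieldFull (N * ℓ)) := by
  intro x hx
  have h := (heckeAlphaBar L N ℓ ⟨x, hx⟩).2
  rwa [coe_heckeAlphaBar] at h

theorem finrankAlong_heckeAlphaBar_eq (L : Type*) [Field L] [CharZero L] [Algebra ℚ L]
    (N ℓ : ℕ) [NeZero N] [NeZero ℓ] :
    finrankAlong L (heckeAlphaBar L N ℓ) =
      relfinrank (laurentBaseChange L (modularFunctionFieldFull N))
        (laurentBaseChange L (modularFunctionFieldFull (N * ℓ))) := by
  set a := laurentBaseChange L (modularFunctionFieldFull N)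
  set b := laurentBaseChange L (modularFunctionFieldFull (N * ℓ))
  have hle : a ≤ b := laurentBaseChange_le_mul L N ℓ
  rw [relfinrank_eq_finrank_of_le hle]
  letI := algebraAlong (heckeAlphaBar L N ℓ)
  refine Algebra.finrank_eq_of_equiv_equiv (RingEquiv.refl a)
    (RingEquiv.refl b : b ≃+* extendScalars hle) ?_
  ext x
  rfl

theorem finrankAlong_heckeAlphaBar_le' (L : Type*) [Field L] [CharZero L] [Algebra ℚ L]
    (N ℓ : ℕ) [NeZero N] [NeZero ℓ] (hℓ : ℓ.Prime) (hN : ¬ ℓ ∣ N) :
    finrankAlong L (heckeAlphaBar L N ℓ) ≤ ℓ + 1 := by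
  rw [finrankAlong_heckeAlphaBar_eq, ModFun.laurentBaseChange_full_eq,
    ModFun.laurentBaseChange_full_eq]
  have h1 := ModFun.relfinrank_modularFunctionFieldC L N
  have h2 := ModFun.relfinrank_modularFunctionFieldC L (N * ℓ)
  have hle1 : (L⟮jqModC L⟯ : IntermediateField L (LaurentSeries L)) ≤ modularFunctionFieldC L N :=
    adjoin_simple_le_iff.mpr (jqModC_mem L N)
  have hle2 : modularFunctionFieldC L N ≤ modularFunctionFieldC L (N * ℓ) := by
    rw [← ModFun.laurentBaseChange_full_eq, ← ModFun.laurentBaseChange_full_eq]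
    exact laurentBaseChange_le_mul L N ℓ
  have h3 := relfinrank_mul_relfinrank hle1 hle2
  rw [h1, h2, Gamma0.dedekindPsi_mul ((hℓ.coprime_iff_not_dvd.mpr hN).symm),
    show dedekindPsi ℓ = ℓ + 1 by simpa using Gamma0.dedekindPsi_prime_pow hℓ 0] at h3
  have hpos : 0 < dedekindPsi N := by
    rw [Gamma0.dedekindPsi_eq_sum]
    exact lt_of_lt_of_le (by simpa using NeZero.pos N)
      (Finset.single_le_sum (f := fun d => if Squarefree d then N / d else 0)
        (fun d _ => Nat.zero_le _) (Nat.one_mem_divisors.mpr (NeZero.ne N)))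
  exact (Nat.eq_of_mul_eq_mul_left hpos h3).le

end Fermat.Agent.ES
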