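/-
Weak Riemann inequality: divisors of large degree are linearly equivalent to effective ones.
-/
import Fermat.Agent.ES.SpecialDivisor
import Fermat.Agent.Curve.BasicFunctionField
import Fermat.Prelude.Def_AlgebraicCurve_Repartitions

set_option autoImplicit false

noncomputable section

open AlgebraicCurve IntermediateField Fermat.Agent.Curve

namespace Fermat.Agent.ES

variable {K F : Type*} [Field K] [Field F] [Algebra K F] [IsFunctionFieldOne K F]

theorem finrank_riemannRochSpace_sub_single (E : Divisor K F) (v : Place K F) :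
    (Module.finrank K (riemannRochSpace E) : ℤ) ≤
      Module.finrank K (riemannRochSpace (E - Finsupp.single v 1)) + v.deg := by
  classical
  haveI := finite_riemannRochSpace (K := K) E
  haveI := finite_riemannRochSpace (K := K) (E - Finsupp.single v 1)
  haveI := finite_residueField (K := K) v
  obtain ⟨p, hp0, hp⟩ := exists_ord_eq v (E v)
  have hmem : ∀ f : riemannRochSpace E, (f : F) * p ∈ v.toValuationSubring := fun f => by
    rw [← ordGE_iff_mem]
    have h : OrdGE v (-E v) (f : F) := mem_riemannRochSpace_iff.mp f.2 v
    simpa using h.mul (OrdGE.of_le hp.ge)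
  let g : riemannRochSpace E →ₗ[K] v.ResidueField :=
    { toFun := fun f => IsLocalRing.residue _ ⟨(f : F) * p, hmem f⟩
      map_add' := fun f f' => by
        rw [← map_add]; exact congrArg _ (Subtype.ext (add_mul (f : F) f' p))
      map_smul' := fun c f => by
        rw [RingHom.id_apply, Algebra.smul_def, IsScalarTower.algebraMap_apply K
          v.toValuationSubring v.ResidueField, IsLocalRing.ResidueField.algebraMap_eq, ← map_mul]
        exact congrArg _ (Subtype.ext (by
          show (c • (f : F)) * p = _
          rw [Algebra.smul_def, mul_assoc]; rfl)) }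
  have hker : LinearMap.ker g ≤
      (riemannRochSpace (E - Finsupp.single v 1)).comap (riemannRochSpace E).subtype := by
    intro f hf
    rw [Submodule.mem_comap, Submodule.subtype_apply, mem_riemannRochSpace_iff]
    intro u
    rcases eq_or_ne u v with rfl | hu
    · rcases eq_or_ne (f : F) 0 with h0 | h0
      · exact Or.inl h0
      rcases ordGE_mk_of_residue_eq_zero (x := ⟨(f : F) * p, hmem f⟩) (LinearMap.mem_ker.mp hf)
        with h | h
      · exact Or.inl ((mul_eq_zero.mp h).resolve_right hp0)
      · refine Or.inr ?_
        rw [u.ord_mul h0 hp0, hp] at h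
        simp only [Finsupp.sub_apply, Finsupp.single_eq_same]
        omega
    · simp only [Finsupp.sub_apply, Finsupp.single_eq_of_ne hu, sub_zero]
      exact mem_riemannRochSpace_iff.mp f.2 u
  have h1 := LinearMap.finrank_range_add_finrank_ker g
  have h2 : Module.finrank K (LinearMap.range g) ≤ v.deg := Submodule.finrank_le _
  have hle : riemannRochSpace (E - Finsupp.single v 1) ≤ riemannRochSpace E := fun x hx => by
    rw [mem_riemannRochSpace_iff] at hx ⊢
    intro u
    refine (hx u).imp_right fun h => ?_
    rcases eq_or_ne u v with rfl | hu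
    · simp only [Finsupp.sub_apply, Finsupp.single_eq_same] at h; omega
    · simpa [Finsupp.single_eq_of_ne hu] using h
  have h3 := (Submodule.finrank_mono hker).trans
    (Submodule.comapSubtypeEquivOfLe hle).finrank_eq.le
  omega

theorem finrank_riemannRochSpace_sub (E X : Divisor K F) (hX : 0 ≤ X) :
    (Module.finrank K (riemannRochSpace E) : ℤ) ≤
      Module.finrank K (riemannRochSpace (E - X)) + Divisor.degree X := by
  classical
  induction X using Finsupp.induction generalizing E with
  | zero => rw [sub_zero, map_zero, add_zero]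
  | single_add v k D hvD hk ih =>
    have hDv : D v = 0 := Finsupp.notMem_support_iff.mp hvD
    have hk0 : 0 ≤ k := by have := hX v; simpa [hDv] using this
    have hD' : 0 ≤ D := fun u => by
      rcases eq_or_ne u v with rfl | h
      · simp [hDv]
      · simpa [Finsupp.single_eq_of_ne h] using hX u
    obtain ⟨j, rfl⟩ := Int.eq_ofNat_of_zero_le hk0
    clear hk hk0 hX
    induction j with
    | zero =>
      rw [Nat.cast_zero, Finsupp.single_zero, zero_add]
      exact ih E hD'
    | succ j ihj =>
      have h := finrank_riemannRochSpace_sub_single (E - (Finsupp.single v (j : ℤ) + D)) v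
      have heq : E - (Finsupp.single v ((j + 1 : ℕ) : ℤ) + D) =
          E - (Finsupp.single v (j : ℤ) + D) - Finsupp.single v 1 := by
        rw [Nat.cast_succ, Finsupp.single_add]; abel
      rw [heq]
      rw [map_add, Divisor.degree_single] at ihj ⊢
      push_cast
      linarith

/-- A divisor sequence with many functions. -/
theorem exists_large_riemannRochSpace :
    ∃ (n : ℕ) (B C : Divisor K F), 0 < n ∧ Divisor.degree B = n ∧ ∀ l : ℕ,
      (n : ℤ) * (l + 1) ≤ Module.finrank K (riemannRochSpace ((l : ℤ) • B + C)) := by
  classical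
  obtain ⟨t, ht, -⟩ := IsFunctionFieldOne.exists_transcendental_finite (K := K) (F := F)
  have := finite_adjoin_of_transcendental ht
  set n := Module.finrank K⟮t⟯ F with hn
  set B := poleDivisor K t with hB
  let b := Module.finBasis K⟮t⟯ F
  set C : Divisor K F := ∑ i, poleDivisor K (b i) with hC
  have hC0 : ∀ v, 0 ≤ C v := fun v => by
    rw [hC, Finsupp.finsetSum_apply]; exact Finset.sum_nonneg fun i _ => by simp
  have hCb : ∀ i v, -(C v) ≤ v.ord (b i) := fun i v => by
    have : poleDivisor K (b i) v ≤ C v := by
      rw [hC, Finsupp.finsetSum_apply]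
      exact Finset.single_le_sum (f := fun i => poleDivisor K (b i) v) (fun i _ => by simp)
        (Finset.mem_univ i)
    rw [poleDivisor_apply] at this
    omega
  refine ⟨n, B, C, finrank_adjoin_pos ht, degree_poleDivisor ht, fun l => ?_⟩
  set D := (l : ℤ) • B + C with hD
  have hfam : ∀ (j : Fin (l + 1)) (i : Fin n), t ^ (j : ℕ) * b i ∈ riemannRochSpace D := by
    intro j i
    rw [mem_riemannRochSpace_iff]
    intro v
    refine Or.inr ?_
    have ht0 : t ≠ 0 := fun h => ht (h ▸ isAlgebraic_zero)
    rw [v.ord_mul (pow_ne_zero _ ht0) (b.ne_zero i), ord_pow]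
    have h1 := hCb i v
    have hjl : ((j : ℕ) : ℤ) ≤ l := by have := j.isLt; omega
    have h2 : -((l : ℤ) * max (-(v.ord t)) 0) ≤ ((j : ℕ) : ℤ) * v.ord t := by
      rcases le_or_gt 0 (v.ord t) with h | h
      · exact le_trans (neg_nonpos.mpr (mul_nonneg (Int.natCast_nonneg l) (le_max_right _ _)))
          (mul_nonneg (Int.natCast_nonneg _) h)
      · rw [max_eq_left (by omega), mul_neg, neg_neg]
        exact mul_le_mul_of_nonpos_right hjl h.le
    simp only [hD, hB, Finsupp.add_apply, Finsupp.smul_apply, smul_eq_mul, poleDivisor_apply]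
    linarith
  have hpow : LinearIndependent K fun j : Fin (l + 1) =>
      AdjoinSimple.gen K t ^ (j : ℕ) := by
    have hinj : Function.Injective
        (Polynomial.aeval (AdjoinSimple.gen K t) : Polynomial K →ₐ[K] K⟮t⟯) := by
      refine Function.Injective.of_comp (f := (K⟮t⟯).val) ?_
      have := transcendental_iff_injective.mp ht
      convert this using 1
      funext f
      exact (Polynomial.aeval_algHom_apply (K⟮t⟯).val (AdjoinSimple.gen K t) f).symm
    have h := ((Polynomial.basisMonomials K).linearIndependent.comp (fun j : Fin (l + 1) => (j : ℕ))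
      Fin.val_injective).map' (Polynomial.aeval (AdjoinSimple.gen K t)).toLinearMap
        (LinearMap.ker_eq_bot.mpr hinj)
    simpa [Function.comp_def, Polynomial.coe_basisMonomials] using h
  have hli : LinearIndependent K fun p : Fin (l + 1) × Fin n => t ^ (p.1 : ℕ) * b p.2 := by
    have h := linearIndependent_smul hpow b.linearIndependent
    convert h using 1
    funext p
    rw [Algebra.smul_def]
    simp
  have := finite_riemannRochSpace D
  have hcard := (LinearIndependent.of_comp (riemannRochSpace D).subtype
    (v := fun p : Fin (l + 1) × Fin n => (⟨_, hfam p.1 p.2⟩ : riemannRochSpace D))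
    hli).fintype_card_le_finrank
  rw [Fintype.card_prod, Fintype.card_fin, Fintype.card_fin] at hcard
  have h4 : ((l + 1) * n : ℕ) ≤ (Module.finrank K (riemannRochSpace D) : ℤ) := by
    exact_mod_cast hcard
  push_cast at h4
  linarith

theorem exists_ne_zero_mem {D : Divisor K F}
    (h : 0 < Module.finrank K (riemannRochSpace D)) : ∃ f ∈ riemannRochSpace D, f ≠ 0 := by
  haveI := Module.nontrivial_of_finrank_pos h
  obtain ⟨x, hx⟩ := exists_ne (0 : riemannRochSpace D)
  exact ⟨x, x.2, fun h0 => hx (Subtype.ext h0)⟩

/-- Divisors of large degree are linearly equivalent to effective divisors. -/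
theorem hasEffectiveRep : HasEffectiveRep K F := by
  classical
  obtain ⟨n, B, C, hn, hB, hlarge⟩ := exists_large_riemannRochSpace (K := K) (F := F)
  refine ⟨Divisor.degree C, fun D hD => ?_⟩
  set Dp : Divisor K F := D.mapRange (fun a => max a 0) (max_self 0) with hDp
  have hDp0 : 0 ≤ Dp := fun v => by simp [hDp]
  obtain ⟨l, hl⟩ : ∃ l : ℕ, Divisor.degree Dp < (n : ℤ) * (l + 1) := by
    refine ⟨(Divisor.degree Dp).toNat, ?_⟩
    have : (1 : ℤ) ≤ n := by exact_mod_cast hn
    nlinarith [Int.self_le_toNat (Divisor.degree Dp)]
  set X := (l : ℤ) • B + C with hX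
  obtain ⟨f, hf, hf0⟩ : ∃ f ∈ riemannRochSpace (X - Dp), f ≠ 0 := by
    refine exists_ne_zero_mem ?_
    have := finrank_riemannRochSpace_sub X Dp hDp0
    have := hlarge l
    rw [← hX] at this
    omega
  set D' := D - divisorOf K f with hD'
  have hD'X : D' ≤ X := fun v => by
    have h := (mem_riemannRochSpace_iff.mp hf v).resolve_left hf0
    simp only [hD', hDp, Finsupp.sub_apply, divisorOf_apply, Finsupp.mapRange_apply] at h ⊢
    omega
  obtain ⟨g, hg, hg0⟩ : ∃ g ∈ riemannRochSpace D', g ≠ 0 := by
    refine exists_ne_zero_mem ?_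
    have h1 := finrank_riemannRochSpace_sub X (X - D') (sub_nonneg.mpr hD'X)
    rw [sub_sub_cancel, map_sub, hX, map_add, map_zsmul, hB, smul_eq_mul, hD', map_sub,
      degree_divisorOf, ← hD', ← hX] at h1
    have h2 := hlarge l
    rw [← hX] at h2
    have : (1 : ℤ) ≤ n := by exact_mod_cast hn
    nlinarith
  refine ⟨D' + divisorOf K g, fun v => ?_, ?_⟩
  · have h := (mem_riemannRochSpace_iff.mp hg v).resolve_left hg0
    simp only [Finsupp.add_apply, Finsupp.zero_apply, Finsupp.coe_zero, Pi.zero_apply,
      divisorOf_apply]
    omega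
  · refine ⟨f * g⁻¹, mul_ne_zero hf0 (inv_ne_zero hg0), fun v => ?_⟩
    rw [v.ord_mul hf0 (inv_ne_zero hg0), v.ord_inv]
    simp only [hD', Finsupp.sub_apply, Finsupp.add_apply, divisorOf_apply]
    ring

end Fermat.Agent.ES
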