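/-
What the specialization argument uses about the modular Jacobians.
-/
import Fermat.Agent.ES.SpecialGalois
import Fermat.Agent.ES.SpecialRR
import Fermat.Agent.ES.SpecialDegree
import Fermat.Agent.Curve.BasicModular
import Fermat.Agent.Curve.BasicInstances
import Fermat.Agent.Igusa.JacobianTorsion
import Fermat.Prelude.Def_ModularCurve_HeckeOperator

set_option autoImplicit false

noncomputable section

open AlgebraicCurve ModularCurve

namespace Fermat.Agent.ES

variable (N : ℕ) [NeZero N]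

theorem hasEffectiveRep_modularFunctionFieldBar :
    HasEffectiveRep (AlgebraicClosure ℚ) (modularFunctionFieldBar N) :=
  hasEffectiveRep

theorem curveFacts : CurveFacts N where
  hasPrincipalDivisors := inferInstance
  deg_eq_one := fun P => IsCurveOver.deg_eq_one_of_isAlgClosed P
  hasEffectiveRep := hasEffectiveRep_modularFunctionFieldBar N

theorem finrankAlong_heckeAlphaBar_le {ℓ : ℕ} [NeZero ℓ] (hℓ : ℓ.Prime) (hN : ¬ ℓ ∣ N) :
    finrankAlong (AlgebraicClosure ℚ) (heckeAlphaBar (AlgebraicClosure ℚ) N ℓ) ≤ ℓ + 1 :=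
  finrankAlong_heckeAlphaBar_le' (AlgebraicClosure ℚ) N ℓ hℓ hN

theorem eq_zero_of_reductionModL {ℓ : ℕ} [Fact ℓ.Prime] (hℓN : ¬ ℓ ∣ N)
    (A : ValuationSubring (AlgebraicClosure ℚ)) (hA : A.LiesOverPrime ℓ)
    (h : ReductionInputsModL A N) (m : ℕ) (hm : ¬ ℓ ∣ m) (z : JZero N)
    (hmz : m • z = 0) (hz : reductionModL A N z = 0) : z = 0 :=
  Igusa.eq_zero_of_reductionModL_eq_zero hℓN hA h m hm z hmz hz

end Fermat.Agent.ES
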