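/-
The Eichler–Shimura relation `σ² - T_ℓ σ + ℓ = 0` on torsion prime to `ℓ`, and the
specialization of `J₀(N)` at a place over `ℓ`.
-/
import Fermat.Agent.ES.SpecialInputs
import Fermat.Agent.ES.SpecialCongruence
import Fermat.Agent.Igusa.JacobianGood
import Fermat.Agent.Galois.Frobenius

set_option autoImplicit false

noncomputable section

open AlgebraicCurve ModularCurve

namespace Fermat.Agent.ES

variable {N : ℕ} [NeZero N] {A : ValuationSubring (AlgebraicClosure ℚ)} {ℓ : ℕ}
variable {σ : AlgebraicClosure ℚ ≃ₐ[ℚ] AlgebraicClosure ℚ}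

theorem reductionInputs (hℓ : ℓ.Prime) (hN : ¬ ℓ ∣ N) (hA : A.LiesOverPrime ℓ) :
    ReductionInputsModL A N :=
  haveI : Fact ℓ.Prime := ⟨hℓ⟩
  Igusa.reductionInputsModL hN hA

/-- Inertia acts trivially after reduction. -/
theorem reductionModL_inertia (hℓ : ℓ.Prime) (hN : ¬ ℓ ∣ N) (hA : A.LiesOverPrime ℓ)
    (hσ : σ ∈ A.inertiaSubgroupIn ℚ) (x : JZero N) :
    reductionModL A N (σ • x) = reductionModL A N x := by
  obtain ⟨h, h1⟩ := residueAut_eq_one_of_mem_inertia A hσ
  rw [reductionModL_galois A (curveFacts N) (reductionInputs hℓ hN hA) h, h1, coeffAut_one,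
    one_smul]

/-- Two Frobenius elements agree after reduction. -/
theorem reductionModL_frobenius (hℓ : ℓ.Prime) (hN : ¬ ℓ ∣ N) (hA : A.LiesOverPrime ℓ)
    {τ : AlgebraicClosure ℚ ≃ₐ[ℚ] AlgebraicClosure ℚ}
    (hσ : A.IsFrobeniusAt σ ℓ) (hτ : A.IsFrobeniusAt τ ℓ) (x : JZero N) :
    reductionModL A N (σ • x) = reductionModL A N (τ • x) := by
  have hX := curveFacts N
  have h := reductionInputs hℓ hN hA
  rw [reductionModL_galois A hX h hσ.mem_decompositionSubgroup,
    reductionModL_galois A hX h hτ.mem_decompositionSubgroup,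
    show residueAut A hσ.mem_decompositionSubgroup = residueAut A hτ.mem_decompositionSubgroup
      from RingEquiv.ext fun z => (hσ.smul_residue_eq z).trans (hτ.smul_residue_eq z).symm]

/-- The quadratic relation after reduction, at every point. -/
theorem reductionModL_frobenius_quadratic (hℓ : ℓ.Prime) (hN : ¬ ℓ ∣ N)
    (hA : A.LiesOverPrime ℓ) (hσ : A.IsFrobeniusAt σ ℓ) (x : JZero N) :
    reductionModL A N (σ • σ • x - heckeOperatorBar N ⟨ℓ, hℓ⟩ (σ • x) + ℓ • x) = 0 := by
  haveI : NeZero ℓ := ⟨hℓ.ne_zero⟩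
  have hX := curveFacts N
  have h := reductionInputs hℓ hN hA
  rw [map_add, map_sub, map_nsmul,
    reductionModL_hecke A hℓ hN hA (finrankAlong_heckeAlphaBar_le N hℓ hN) hX h
      (residueAut A hσ.mem_decompositionSubgroup) (fun z => hσ.smul_residue_eq z),
    reductionModL_galois A hX h hσ.mem_decompositionSubgroup (σ • x),
    reductionModL_galois A hX h hσ.mem_decompositionSubgroup x, inv_smul_smul,
    natCast_zsmul]
  abel

theorem eq_zero_of_reduction_of_pow {p : ℕ} (hℓ : ℓ.Prime) (hNp : ¬ ℓ ∣ N * p)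
    (hA : A.LiesOverPrime ℓ) {z : JZero N} (hz : ∃ n : ℕ, p ^ n • z = 0)
    (h0 : reductionModL A N z = 0) : z = 0 := by
  haveI : Fact ℓ.Prime := ⟨hℓ⟩
  have hN : ¬ ℓ ∣ N := fun h => hNp (h.mul_right p)
  obtain ⟨n, hn⟩ := hz
  exact eq_zero_of_reductionModL N hN A hA (reductionInputs hℓ hN hA) (p ^ n)
    (fun h => hNp ((hℓ.dvd_of_dvd_pow h).mul_left N)) z hn h0

theorem galois_smul_nsmul (m : ℕ) (x : JZero N) : σ • (m • x) = m • (σ • x) :=
  map_nsmul (DistribSMul.toAddMonoidHom (JZero N) σ) m x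

theorem galois_smul_zero : σ • (0 : JZero N) = 0 :=
  (DistribSMul.toAddMonoidHom (JZero N) σ).map_zero

/-- Inertia at `ℓ ∤ N p` fixes the `p`-power torsion of `J₀(N)`. -/
theorem smul_eq_self_of_inertia {p : ℕ} (hℓ : ℓ.Prime) (hNp : ¬ ℓ ∣ N * p)
    (hA : A.LiesOverPrime ℓ) (hσ : σ ∈ A.inertiaSubgroupIn ℚ) {x : JZero N}
    (hx : ∃ n : ℕ, p ^ n • x = 0) : σ • x = x := by
  obtain ⟨n, hn⟩ := hx
  rw [← sub_eq_zero]
  refine eq_zero_of_reduction_of_pow hℓ hNp hA ⟨n, ?_⟩ ?_
  · rw [nsmul_sub, ← galois_smul_nsmul, hn, galois_smul_zero, sub_zero]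
  · rw [map_sub, reductionModL_inertia hℓ (fun h => hNp (h.mul_right p)) hA hσ, sub_self]

/-- **Eichler–Shimura on torsion**: `σ² - T_ℓ σ + ℓ = 0` on `p`-power torsion, for a Frobenius
`σ` at `ℓ ∤ N p`; no commutation of the Hecke operators is assumed. -/
theorem frobenius_quadratic {p : ℕ} (hℓ : ℓ.Prime) (hNp : ¬ ℓ ∣ N * p)
    (hA : A.LiesOverPrime ℓ) (hσ : A.IsFrobeniusAt σ ℓ) {x : JZero N}
    (hx : ∃ n : ℕ, p ^ n • x = 0) :
    σ • σ • x - heckeOperatorBar N ⟨ℓ, hℓ⟩ (σ • x) + ℓ • x = 0 := by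
  obtain ⟨n, hn⟩ := hx
  refine eq_zero_of_reduction_of_pow hℓ hNp hA ⟨n, ?_⟩
    (reductionModL_frobenius_quadratic hℓ (fun h => hNp (h.mul_right p)) hA hσ x)
  have h2 : p ^ n • (σ • x) = 0 := by rw [← galois_smul_nsmul, hn, galois_smul_zero]
  rw [nsmul_add, nsmul_sub, ← map_nsmul, ← galois_smul_nsmul, h2, galois_smul_zero, map_zero,
    nsmul_left_comm, hn, nsmul_zero, sub_zero, add_zero]

section Specialization

variable (N A) [Module HeckeAlg (JZero N)]
  [SMulCommClass (AlgebraicClosure ℚ ≃ₐ[ℚ] AlgebraicClosure ℚ) HeckeAlg (JZero N)]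

/-- The largest Hecke submodule killed by the reduction. -/
def reductionKernel : Submodule HeckeAlg (JZero N) where
  carrier := {x | ∀ t : HeckeAlg, reductionModL A N (t • x) = 0}
  zero_mem' t := by rw [smul_zero, map_zero]
  add_mem' hx hy t := by rw [smul_add, map_add, hx t, hy t, add_zero]
  smul_mem' a x hx t := by rw [← mul_smul]; exact hx _

/-- `SpecializationExists` for any Hecke module structure on `J₀(N)` in which the generator at
`ℓ` acts as the operator `T_ℓ`. -/
theorem specializationExists (p : ℕ)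
    (hgen : ∀ (q : Nat.Primes) (x : JZero N), heckeGen q • x = heckeOperatorBar N q x) :
    SpecializationExists (K := ℚ) (L := AlgebraicClosure ℚ) N p (JZero N) := by
  intro ℓ hℓ hNp A hA
  have hN : ¬ ℓ ∣ N := fun h => hNp (h.mul_right p)
  obtain ⟨σ₀, hσ₀⟩ := Galois.exists_isFrobeniusAt hℓ hA
  let act : JZero N →ₗ[HeckeAlg] JZero N := DistribSMul.toLinearMap HeckeAlg (JZero N) σ₀
  have hstab : reductionKernel N A ≤ (reductionKernel N A).comap act := by
    intro x hx t
    show reductionModL A N (t • σ₀ • x) = 0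
    rw [← smul_comm σ₀ t x,
      reductionModL_galois A (curveFacts N) (reductionInputs hℓ hN hA)
        hσ₀.mem_decompositionSubgroup, hx t]
    exact map_zero (DistribSMul.toAddMonoidHom (JZeroC (IsLocalRing.ResidueField A) N)
      (coeffAut N (residueAut A hσ₀.mem_decompositionSubgroup)))
  refine ⟨JZero N ⧸ reductionKernel N A, inferInstance, inferInstance,
    (reductionKernel N A).mkQ.toAddMonoidHom,
    ((reductionKernel N A).mapQ _ act hstab).toAddMonoidHom,
    ⟨fun T x => rfl, ?_, ?_, ?_⟩, ?_⟩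
  · intro σ hσ x
    refine (Submodule.Quotient.eq _).mpr fun t => ?_
    rw [smul_sub, map_sub, ← smul_comm σ t x, reductionModL_inertia hℓ hN hA hσ, sub_self]
  · intro σ hσ x
    refine (Submodule.Quotient.eq _).mpr fun t => ?_
    show reductionModL A N (t • (σ • x - σ₀ • x)) = 0
    rw [smul_sub, map_sub, ← smul_comm σ t x, ← smul_comm σ₀ t x,
      reductionModL_frobenius hℓ hN hA hσ hσ₀, sub_self]
  · intro x hx h0
    refine eq_zero_of_reduction_of_pow hℓ hNp hA hx ?_
    simpa using (Submodule.Quotient.mk_eq_zero _).mp h0 1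
  · intro y
    obtain ⟨x, rfl⟩ := Submodule.Quotient.mk_surjective _ y
    refine (Submodule.Quotient.mk_eq_zero (reductionKernel N A)).mpr fun t => ?_
    show reductionModL A N (t • (σ₀ • σ₀ • x - heckeGen ⟨ℓ, hℓ⟩ • σ₀ • x + ℓ • x)) = 0
    rw [smul_add, smul_sub, smul_comm t ℓ x, smul_comm t (heckeGen ⟨ℓ, hℓ⟩) (σ₀ • x),
      ← smul_comm σ₀ t (σ₀ • x), ← smul_comm σ₀ t x, hgen,
      reductionModL_frobenius_quadratic hℓ hN hA hσ₀]

end Specialization

/-- `SpecializationExists` for the Hecke module `heckeModuleBar N`. -/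
theorem specializationExists_heckeModuleBar (p : ℕ) (hcomm : HeckeOperatorsCommuteBar N) :
    letI := heckeModuleBar N
    ∀ (_ : SMulCommClass (AlgebraicClosure ℚ ≃ₐ[ℚ] AlgebraicClosure ℚ) HeckeAlg (JZero N)),
      SpecializationExists (K := ℚ) (L := AlgebraicClosure ℚ) N p (JZero N) := by
  letI := heckeModuleBar N
  intro _
  exact specializationExists N p (fun q x => heckeModuleBar_heckeGen_smul hcomm q x)

end Fermat.Agent.ES
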