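/-
Rational points of `J₀(N)` reduce into a finite set: the classes fixed by the Frobenius of the
coefficients.
-/
import Fermat.Agent.ES.SpecialGalois
import Fermat.Agent.ES.SpecialMain
import Fermat.Agent.BadReduction.X0Frobenius
import Fermat.Agent.Curve.Zeta
import Fermat.Agent.Curve.ZetaClass
import Fermat.Agent.MW.WeakReduction

set_option autoImplicit false

noncomputable section

open AlgebraicCurve ModularCurve

namespace Fermat.Agent.ES

local notation "Qbar" => AlgebraicClosure ℚ

set_option synthInstance.maxHeartbeats 400000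

variable {N : ℕ} [NeZero N] {ℓ : ℕ} [Fact ℓ.Prime] {A : ValuationSubring Qbar}

/-- Reductions of rational points form a finite set. -/
theorem finite_reduction_fixed (hℓN : ¬ ℓ ∣ N) (hA : A.LiesOverPrime ℓ) :
    (reductionModL A N ''
      {x : JZero N | ∀ σ : Qbar ≃ₐ[ℚ] Qbar, σ • x = x}).Finite := by
  have hℓ : ℓ.Prime := Fact.out
  haveI := (Igusa.x0GoodReduction hℓN hA).isAlgClosed_residue
  haveI := charP_residueField A hℓ hA
  haveI : NeZero ℓ := ⟨hℓ.ne_zero⟩
  obtain ⟨σ, hσ⟩ := Galois.exists_isFrobeniusAt hℓ hA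
  have hres : residueAut A hσ.mem_decompositionSubgroup =
      BadReduction.constFrob (IsLocalRing.ResidueField A) ℓ :=
    RingEquiv.ext fun z => hσ.smul_residue_eq z
  have hfrob := BadReduction.isFrob_resFrobAut (IsLocalRing.ResidueField A) ℓ N
    (fun c => MW.exists_pow_pow_eq hA c)
  have hfin := hfrob.finite_fixClass Curve.rrFacts_of_isCurveOver
  refine (Set.toFinite (Curve.ZetaFrob.fixClass
    (BadReduction.resFrobAut (IsLocalRing.ResidueField A) ℓ N))).subset ?_
  rintro _ ⟨x, hx, rfl⟩
  show coeffAut N (BadReduction.constFrob (IsLocalRing.ResidueField A) ℓ) •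
    reductionModL A N x = reductionModL A N x
  rw [← hres, ← reductionModL_galois A (curveFacts N) (reductionInputs hℓ hℓN hA)
    hσ.mem_decompositionSubgroup x, hx σ]

end Fermat.Agent.ES
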