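/-
The norm along `α` of `β y` reduces, at any residue characteristic, to a product of substitutions
of the reduction of `y`.
-/
import Fermat.Agent.ES.IdentityNorm

set_option autoImplicit false

noncomputable section

open ModularCurve AlgebraicCurve HahnSeries
open Fermat.Agent.EichlerShimura

namespace Fermat.Agent.ES

local notation "Qbar" => AlgebraicClosure ℚ

variable {N j : ℕ} [NeZero N] [NeZero j]

theorem twist_algebraMap {k : Type*} [Field k] (w : kˣ) (c : k) :
    twist w (algebraMap k (LaurentSeries k) c) = algebraMap k (LaurentSeries k) c := by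
  rw [algebraMap_laurentSeries_eq_single]
  ext n
  rw [twist_coeff]
  rcases eq_or_ne n 0 with rfl | hn
  · simp
  · simp [HahnSeries.coeff_single_of_ne hn]

theorem qExpand_algebraMap {k : Type*} [Field k] (n : ℕ) [NeZero n] (c : k) :
    qExpand k n (algebraMap k (LaurentSeries k) c) = algebraMap k (LaurentSeries k) c := by
  rw [algebraMap_laurentSeries_eq_single, qExpand_single, mul_zero]

/-- Integrality of the norm, with the shape of its reduction. -/
theorem exists_integral_norm (hj : j.Prime) (hjN : ¬ j ∣ N)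
    (hfin : FiniteAlong Qbar (heckeAlphaBar Qbar N j))
    (hdeg : finrankAlong Qbar (heckeAlphaBar Qbar N j) ≤ j + 1)
    (A : ValuationSubring Qbar) {k : Type*} [Field k] (π : A →+* k) :
    ∃ w : kˣ, ∀ (y : LaurentSeries A) (hy : coeffMap A.subtype y ∈ modularFunctionFieldBar N),
      ∃ z : LaurentSeries A,
        coeffMap A.subtype z
          = (normAlpha N j (heckeBetaBar Qbar N j ⟨coeffMap A.subtype y, hy⟩) :
              LaurentSeries Qbar) ∧
        qExpand k j (coeffMap π z) = qExpand k (j * j) (coeffMap π y) *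
          ∏ a ∈ Finset.range j, twist (w ^ a) (coeffMap π y) := by
  obtain ⟨ζ, hζ⟩ := HasEnoughRootsOfUnity.exists_primitiveRoot (M := Qbar) (n := j)
  have hζA : ζ ∈ A := by
    rcases A.mem_or_inv_mem ζ with h | h
    · exact h
    · have hp1 : ζ⁻¹ ^ (j - 1) = ζ := by
        rw [inv_pow]
        refine inv_eq_of_mul_eq_one_left ?_
        rw [← pow_succ', Nat.sub_add_cancel (NeZero.pos j), hζ.pow_eq_one]
      exact hp1 ▸ pow_mem h _
  have hζA' : IsPrimitiveRoot (⟨ζ, hζA⟩ : A) j :=
    IsPrimitiveRoot.of_map_of_injective (f := A.subtype) hζ Subtype.coe_injective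
  let uA : Aˣ := (hζA'.isUnit (NeZero.ne j)).unit
  have huA : (uA : A) = ⟨ζ, hζA⟩ := IsUnit.unit_spec _
  let u : Qbarˣ := Units.map (A.subtype : A →* Qbar) uA
  have hu : IsPrimitiveRoot (u : Qbar) j := by
    show IsPrimitiveRoot ((uA : A) : Qbar) j
    rw [huA]
    exact hζ
  refine ⟨Units.map (π : A →* k) uA, fun y hy => ?_⟩
  set G : LaurentSeries A := qExpand A (j * j) y * ∏ a ∈ Finset.range j, twist (uA ^ a) y with hG
  have hG1 : coeffMap A.subtype G = qExpand Qbar j
      (normAlpha N j (heckeBetaBar Qbar N j ⟨coeffMap A.subtype y, hy⟩) : LaurentSeries Qbar) := by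
    rw [qExpand_normAlpha_heckeBeta hj hjN hfin hdeg u hu, hG, map_mul, map_prod, coeffMap_qExpand]
    congr 1
    refine Finset.prod_congr rfl fun a _ => ?_
    rw [coeffMap_twist, map_pow]
  obtain ⟨z, hz, hGz⟩ := exists_eq_qExpand_of_coeffMap_eq Subtype.coe_injective j hG1
  refine ⟨z, hz, ?_⟩
  rw [← coeffMap_qExpand, ← hGz, hG, map_mul, map_prod, coeffMap_qExpand]
  congr 1
  exact Finset.prod_congr rfl fun a _ => by rw [coeffMap_twist, map_pow]

/-- If the reductions of two series differ by a constant, so do those of their norms. -/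
theorem exists_integral_norm_scale (hj : j.Prime) (hjN : ¬ j ∣ N)
    (hfin : FiniteAlong Qbar (heckeAlphaBar Qbar N j))
    (hdeg : finrankAlong Qbar (heckeAlphaBar Qbar N j) ≤ j + 1)
    (A : ValuationSubring Qbar) {k : Type*} [Field k] (π : A →+* k)
    (y y' : LaurentSeries A) (hy : coeffMap A.subtype y ∈ modularFunctionFieldBar N)
    (hy' : coeffMap A.subtype y' ∈ modularFunctionFieldBar N) {c : k}
    (hc : coeffMap π y' = algebraMap k (LaurentSeries k) c * coeffMap π y)
    (h0 : coeffMap π y ≠ 0) :
    ∃ z z' : LaurentSeries A,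
      coeffMap A.subtype z
          = (normAlpha N j (heckeBetaBar Qbar N j ⟨coeffMap A.subtype y, hy⟩) :
              LaurentSeries Qbar) ∧
      coeffMap A.subtype z'
          = (normAlpha N j (heckeBetaBar Qbar N j ⟨coeffMap A.subtype y', hy'⟩) :
              LaurentSeries Qbar) ∧
      coeffMap π z' = algebraMap k (LaurentSeries k) (c ^ (j + 1)) * coeffMap π z ∧
      coeffMap π z ≠ 0 := by
  obtain ⟨w, hw⟩ := exists_integral_norm hj hjN hfin hdeg A π
  obtain ⟨z, hz, hzk⟩ := hw y hy
  obtain ⟨z', hz', hzk'⟩ := hw y' hy'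
  refine ⟨z, z', hz, hz', qExpand_injective j ?_, fun h => ?_⟩
  · rw [hzk', hc, map_mul, map_mul, hzk, qExpand_algebraMap, qExpand_algebraMap]
    simp only [map_mul, twist_algebraMap]
    rw [Finset.prod_mul_distrib, Finset.prod_const, Finset.card_range, map_pow, pow_succ]
    ring
  · rw [h, map_zero] at hzk
    refine mul_ne_zero ?_ (Finset.prod_ne_zero_iff.mpr fun a _ => ?_) hzk.symm
    · rw [← map_zero (qExpand k (j * j))]
      exact (qExpand_injective (j * j)).ne h0
    · intro ht
      apply h0
      ext n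
      have := congrArg (fun x : LaurentSeries k => x.coeff n) ht
      have h1 : (((w ^ a) ^ n : kˣ) : k) * (coeffMap π y).coeff n = 0 := this
      exact (mul_eq_zero.mp h1).resolve_left (Units.ne_zero _)

end Fermat.Agent.ES
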