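/-
The kernel of the reduction of `J₀(N)` at a place over `ℓ` is stable under `T_j`, `j ∤ N`:
the push forward of `T_j D` depends only on the push forward of `D`.
-/
import Fermat.Agent.ES.SpecialNorm
import Fermat.Agent.ES.SpecialCorr
import Fermat.Agent.ES.SpecialInputs
import Fermat.Agent.Igusa.JacobianGood
import Fermat.Agent.Curve.BasicModular
import Fermat.Agent.HeckeJ.Operator

set_option autoImplicit false

noncomputable section

open AlgebraicCurve ModularCurve HahnSeries
open Fermat.Agent.Curve (divisorOf divisorOf_apply degree_divisorOf)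

namespace Fermat.Agent.ES

local notation "Qbar" => AlgebraicClosure ℚ

set_option synthInstance.maxHeartbeats 400000

theorem eq_zero_of_forall_abs_le {x a B : ℤ} (h : ∀ n : ℕ, |(n : ℤ) * x + a| ≤ B) : x = 0 := by
  by_contra hne
  have h0 := h (B + |a|).toNat.succ
  have h1 := abs_add_le ((((B + |a|).toNat.succ : ℕ) : ℤ) * x + a) (-a)
  rw [add_neg_cancel_right, abs_neg] at h1
  have h2 : (((B + |a|).toNat.succ : ℕ) : ℤ) ≤ |(((B + |a|).toNat.succ : ℕ) : ℤ) * x| := by
    rw [abs_mul, Nat.abs_cast]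
    exact le_mul_of_one_le_right (Int.natCast_nonneg _) (Int.one_le_abs hne)
  omega

variable {N : ℕ} [NeZero N] {ℓ : ℕ} [Fact ℓ.Prime] {A : ValuationSubring Qbar}
variable {r : Place Qbar (modularFunctionFieldBar N) →
  Place (IsLocalRing.ResidueField A) (modularFunctionFieldFullC (IsLocalRing.ResidueField A) N)}

theorem isAlgClosed_residueField (hℓN : ¬ ℓ ∣ N) (hA : A.LiesOverPrime ℓ) :
    IsAlgClosed (IsLocalRing.ResidueField A) :=
  (Igusa.x0GoodReduction hℓN hA).isAlgClosed_residue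

/-- Every place reduction is the one of the good reduction. -/
theorem eq_placeMap_of_isPlaceReduction (hℓN : ¬ ℓ ∣ N) (hA : A.LiesOverPrime ℓ)
    (hr : IsPlaceReductionModL A N r) : r = (Igusa.x0GoodReduction hℓN hA).placeMap := by
  haveI := isAlgClosed_residueField hℓN hA
  set G := Igusa.x0GoodReduction hℓN hA with hG
  refine Curve.GoodReduction.IsReductionMap.eq_placeMap (G := G) ?_
  intro f hf D hD Q
  obtain ⟨u, v, hv0, huv, hu, hv⟩ := Igusa.x0GoodReduction_exists_quotient hℓN hA f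
  obtain ⟨hvV, hvφ⟩ := Igusa.x0GoodReduction_φ_coeffMap hℓN hA v hv
  obtain ⟨huV, huφ⟩ := Igusa.x0GoodReduction_φ_coeffMap hℓN hA u hu
  have hmul : (f : modularFunctionFieldBar N) * ⟨_, hv⟩ = ⟨_, hu⟩ := Subtype.ext huv
  have hφ : G.φ f * G.φ ⟨_, hvV⟩ = G.φ ⟨_, huV⟩ := by
    rw [← map_mul]; exact congrArg G.φ (Subtype.ext hmul)
  have hv1 : G.φ ⟨_, hvV⟩ ≠ 0 := fun h => hv0 (hvφ.symm.trans (congrArg Subtype.val h))
  have hu1 : G.φ ⟨_, huV⟩ ≠ 0 := hφ ▸ mul_ne_zero hf hv1
  have hvk := Igusa.coeffMap_residue_mem hℓN hA v hv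
  have huk := Igusa.coeffMap_residue_mem hℓN hA u hu
  have hu0 : coeffMap (IsLocalRing.residue A) u ≠ 0 := fun h =>
    hu1 (Subtype.ext (huφ.trans h))
  have hfne : (f : modularFunctionFieldBar N) ≠ 0 := fun h => hf (by
    rw [show f = 0 from Subtype.ext h, map_zero])
  have hvne : (⟨_, hv⟩ : modularFunctionFieldBar N) ≠ 0 := fun h => hv1 (by
    rw [show (⟨_, hvV⟩ : G.V) = 0 from Subtype.ext h, map_zero])
  have hsum : D + divisorOf Qbar (⟨_, hv⟩ : modularFunctionFieldBar N) =
      divisorOf Qbar (⟨_, hu⟩ : modularFunctionFieldBar N) := by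
    ext P
    rw [Finsupp.add_apply, hD, divisorOf_apply, divisorOf_apply, ← P.ord_mul hfne hvne, hmul]
  have h1 := congrArg (fun E => Finsupp.mapDomain r E Q) hsum
  simp only [Finsupp.mapDomain_add, Finsupp.add_apply] at h1
  rw [hr.2 v hv hvk hv0 _ (divisorOf_apply _) Q, hr.2 u hu huk hu0 _ (divisorOf_apply _) Q] at h1
  have e1 : (⟨_, hvk⟩ : modularFunctionFieldFullC (IsLocalRing.ResidueField A) N) =
      G.φ ⟨_, hvV⟩ := Subtype.ext hvφ.symm
  have e2 : (⟨_, huk⟩ : modularFunctionFieldFullC (IsLocalRing.ResidueField A) N) =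
      G.φ ⟨_, huV⟩ := Subtype.ext huφ.symm
  rw [e1, e2, ← hφ, Q.ord_mul hf hv1] at h1
  omega

variable {j : ℕ} [NeZero j]

/-- A function with constant non-zero reduction has Hecke transform with trivial push forward. -/
theorem mapDomain_hecke_of_const (hℓN : ¬ ℓ ∣ N) (hA : A.LiesOverPrime ℓ)
    (hr : IsPlaceReductionModL A N r) (hj : j.Prime) (hjN : ¬ j ∣ N)
    (f : (Igusa.x0GoodReduction hℓN hA).V) {c : IsLocalRing.ResidueField A} (hc0 : c ≠ 0)
    (hc : (Igusa.x0GoodReduction hℓN hA).φ f = algebraMap _ _ c) :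
    Finsupp.mapDomain r (HeckeJ.heckeDiv Qbar N j (divisorOf Qbar (f : modularFunctionFieldBar N)))
      = 0 := by
  haveI := isAlgClosed_residueField hℓN hA
  haveI := HeckeJ.hasPrincipalDivisors_laurentBaseChange Qbar (N * j)
  obtain ⟨u, v, hv0, huv, hu, hv⟩ := Igusa.x0GoodReduction_exists_quotient hℓN hA f
  obtain ⟨hvV, hvφ⟩ := Igusa.x0GoodReduction_φ_coeffMap hℓN hA v hv
  obtain ⟨huV, huφ⟩ := Igusa.x0GoodReduction_φ_coeffMap hℓN hA u hu
  have hmul : (f : modularFunctionFieldBar N) * ⟨_, hv⟩ = ⟨_, hu⟩ := Subtype.ext huv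
  have hres : coeffMap (IsLocalRing.residue A) u =
      algebraMap _ (LaurentSeries (IsLocalRing.ResidueField A)) c *
        coeffMap (IsLocalRing.residue A) v := by
    rw [← huφ, ← hvφ, show (⟨_, huV⟩ : (Igusa.x0GoodReduction hℓN hA).V) = f * ⟨_, hvV⟩ from Subtype.ext hmul.symm, map_mul,
      hc]
    rfl
  have hvne : (⟨_, hv⟩ : modularFunctionFieldBar N) ≠ 0 := fun h => hv0 (by
    rw [← hvφ, show (⟨_, hvV⟩ : (Igusa.x0GoodReduction hℓN hA).V) = 0 from Subtype.ext h, map_zero]
    rfl)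
  have hune : (⟨_, hu⟩ : modularFunctionFieldBar N) ≠ 0 := fun h => by
    have h' : coeffMap (IsLocalRing.residue A) u = 0 := by
      rw [← huφ, show (⟨_, huV⟩ : (Igusa.x0GoodReduction hℓN hA).V) = 0 from Subtype.ext h, map_zero]
      rfl
    rw [hres, mul_eq_zero] at h'
    exact h'.elim (fun e => hc0 ((map_eq_zero _).mp e)) hv0
  have hfne : (f : modularFunctionFieldBar N) ≠ 0 := fun h => hune (by rw [← hmul, h, zero_mul])
  obtain ⟨z, z', hz, hz', hzz, hz0⟩ := exists_integral_norm_scale hj hjN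
    (HeckeJ.finiteAlong_heckeAlphaBar Qbar N j) (finrankAlong_heckeAlphaBar_le N hj hjN) A
    (IsLocalRing.residue A) v u hv hu hres hv0
  have hzF : coeffMap A.subtype z ∈ modularFunctionFieldBar N := hz ▸ Subtype.coe_prop _
  have hz'F : coeffMap A.subtype z' ∈ modularFunctionFieldBar N := hz' ▸ Subtype.coe_prop _
  have hz'0 : coeffMap (IsLocalRing.residue A) z' ≠ 0 := by
    rw [hzz]
    exact mul_ne_zero ((map_ne_zero _).mpr (pow_ne_zero _ hc0)) hz0
  have hzk := Igusa.coeffMap_residue_mem hℓN hA z hzF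
  have hz'k := Igusa.coeffMap_residue_mem hℓN hA z' hz'F
  have key : ∀ (y : LaurentSeries A) (hy : coeffMap A.subtype y ∈ modularFunctionFieldBar N)
      (x : LaurentSeries A) (hx : coeffMap A.subtype x ∈ modularFunctionFieldBar N),
      (⟨_, hy⟩ : modularFunctionFieldBar N) ≠ 0 →
      coeffMap A.subtype x = (EichlerShimura.normAlpha N j
        (heckeBetaBar Qbar N j ⟨coeffMap A.subtype y, hy⟩) : LaurentSeries Qbar) →
      ∀ hx0 : coeffMap (IsLocalRing.residue A) x ≠ 0,
      ∀ (hxk : coeffMap (IsLocalRing.residue A) x ∈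
        modularFunctionFieldFullC (IsLocalRing.ResidueField A) N) Q,
      Finsupp.mapDomain r (HeckeJ.heckeDiv Qbar N j
        (divisorOf Qbar (⟨_, hy⟩ : modularFunctionFieldBar N))) Q =
      Q.ord (⟨_, hxk⟩ : modularFunctionFieldFullC (IsLocalRing.ResidueField A) N) := by
    intro y hy x hx hyne hxnorm hx0 hxk Q
    refine hr.2 x hx hxk hx0 _ (fun P => ?_) Q
    refine (correspondence_apply_principal _ _ _ _ (HeckeJ.finiteAlong_heckeAlphaBar Qbar N j)
      (HeckeJ.normFormulaAlong_heckeAlphaBar Qbar N j) hyne (divisorOf_apply _) P).trans ?_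
    exact congrArg P.ord (Subtype.ext hxnorm.symm)
  have hsum : divisorOf Qbar (f : modularFunctionFieldBar N) =
      divisorOf Qbar (⟨_, hu⟩ : modularFunctionFieldBar N) -
        divisorOf Qbar (⟨_, hv⟩ : modularFunctionFieldBar N) := by
    ext P
    rw [Finsupp.sub_apply, divisorOf_apply, divisorOf_apply, divisorOf_apply, ← hmul,
      P.ord_mul hfne hvne, add_sub_cancel_right]
  ext Q
  rw [hsum, map_sub, Finsupp.mapDomain_sub, Finsupp.sub_apply, key u hu z' hz'F hune hz' hz'0 hz'k,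
    key v hv z hzF hvne hz hz0 hzk, Finsupp.zero_apply, sub_eq_zero,
    show (⟨_, hz'k⟩ : modularFunctionFieldFullC (IsLocalRing.ResidueField A) N) =
      algebraMap _ _ (c ^ (j + 1)) * ⟨_, hzk⟩ from Subtype.ext hzz,
    Q.ord_mul ((map_ne_zero _).mpr (pow_ne_zero _ hc0)) (fun h => hz0 (congrArg Subtype.val h)),
    Curve.ord_algebraMap, zero_add]

/-- The push forward of `T_j P` depends only on the reduction of `P`. -/
theorem mapDomain_hecke_single_eq (hℓN : ¬ ℓ ∣ N) (hA : A.LiesOverPrime ℓ)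
    (hr : IsPlaceReductionModL A N r) (hj : j.Prime) (hjN : ¬ j ∣ N)
    {P P' : Place Qbar (modularFunctionFieldBar N)} (hPP : r P = r P') :
    Finsupp.mapDomain r (HeckeJ.heckeDiv Qbar N j (Finsupp.single P 1)) =
      Finsupp.mapDomain r (HeckeJ.heckeDiv Qbar N j (Finsupp.single P' 1)) := by
  haveI := isAlgClosed_residueField hℓN hA
  haveI := HeckeJ.hasPrincipalDivisors_laurentBaseChange Qbar (N * j)
  set G := Igusa.x0GoodReduction hℓN hA with hG
  have hrG : r = G.placeMap := eq_placeMap_of_isPlaceReduction hℓN hA hr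
  obtain ⟨c₀, hc₀⟩ := G.exists_bound_reduceSubspace_eq
  set c := max c₀ 0 with hc
  let γ : Divisor Qbar (modularFunctionFieldBar N) →+ _ :=
    (Finsupp.mapDomain.addMonoidHom r).comp (HeckeJ.heckeDiv Qbar N j)
  show γ (Finsupp.single P 1) = γ (Finsupp.single P' 1)
  rw [← sub_eq_zero]
  ext Q
  rw [Finsupp.zero_apply]
  refine eq_zero_of_forall_abs_le (a := c * γ (Finsupp.single P' 1) Q)
    (B := (finrankAlong Qbar (heckeBetaBar Qbar N j) : ℤ) * c) fun n => ?_
  set Dn : Divisor Qbar (modularFunctionFieldBar N) :=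
    (n : ℤ) • (Finsupp.single P 1 - Finsupp.single P' 1) + c • Finsupp.single P' 1 with hDn
  have hdeg1 := (curveFacts N).deg_eq_one
  have hdeg : Divisor.degree Dn = c := by
    rw [hDn, map_add, map_zsmul, map_zsmul, map_sub, Divisor.degree_single, Divisor.degree_single,
      hdeg1, hdeg1]
    simp
  have hmap : G.divMap Dn = Finsupp.single (r P') c := by
    rw [Curve.GoodReduction.divMap_apply, ← hrG, hDn, Finsupp.smul_single, Finsupp.mapDomain_add,
      Finsupp.mapDomain_single, smul_sub, Finsupp.smul_single, Finsupp.smul_single,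
      Finsupp.mapDomain_sub, Finsupp.mapDomain_single, Finsupp.mapDomain_single, hPP, sub_self,
      zero_add]
    simp
  have h1 : (1 : modularFunctionFieldFullC (IsLocalRing.ResidueField A) N) ∈
      G.reduceSubspace (riemannRochSpace Dn) := by
    rw [hc₀ Dn (by rw [hdeg]; exact le_max_left _ _), hmap]
    exact Curve.RedAux.one_mem_L (Finsupp.single_nonneg.mpr (le_max_right _ _))
  obtain ⟨f, hfL, hf1⟩ := G.mem_reduceSubspace.mp h1
  have hf0 : (f : modularFunctionFieldBar N) ≠ 0 := fun h => by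
    rw [show f = 0 from Subtype.ext h, map_zero] at hf1
    exact zero_ne_one hf1
  set E := Dn + divisorOf Qbar (f : modularFunctionFieldBar N) with hE
  have hE0 : 0 ≤ E := fun R => by
    have h := (mem_riemannRochSpace_iff.mp hfL R).resolve_left hf0
    simp only [hE, Finsupp.coe_zero, Pi.zero_apply, Finsupp.add_apply, divisorOf_apply]
    omega
  have hEdeg : Divisor.degree E = c := by rw [hE, map_add, hdeg, degree_divisorOf, add_zero]
  have hγf : γ (divisorOf Qbar (f : modularFunctionFieldBar N)) = 0 :=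
    mapDomain_hecke_of_const hℓN hA hr hj hjN f one_ne_zero (hf1.trans (map_one _).symm)
  have hγE : γ E Q = (n : ℤ) * (γ (Finsupp.single P 1) - γ (Finsupp.single P' 1)) Q +
      c * γ (Finsupp.single P' 1) Q := by
    rw [hE, map_add, hγf, add_zero, hDn, map_add, map_zsmul, map_zsmul, map_sub,
      Finsupp.add_apply, Finsupp.smul_apply, Finsupp.smul_apply, smul_eq_mul, smul_eq_mul]
  have hb := mapDomain_apply_le hdeg1 r (E := HeckeJ.heckeDiv Qbar N j E)
    (correspondence_nonneg _ _ _ _ hE0) Q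
  have hT : Divisor.degree (HeckeJ.heckeDiv Qbar N j E) =
      (finrankAlong Qbar (heckeBetaBar Qbar N j) : ℤ) * c :=
    (Divisor.degree_correspondence _ _ _ _
      (HeckeJ.fundamentalIdentityAlong_heckeBetaBar Qbar N j) E).trans (by rw [hEdeg])
  rw [hT] at hb
  rw [← hγE]
  exact (abs_of_nonneg hb.1).trans_le hb.2

/-- If `D` pushes forward to zero, so does `T_j D`. -/
theorem mapDomain_hecke_eq_zero (hℓN : ¬ ℓ ∣ N) (hA : A.LiesOverPrime ℓ)
    (hr : IsPlaceReductionModL A N r) (hj : j.Prime) (hjN : ¬ j ∣ N)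
    {D : Divisor Qbar (modularFunctionFieldBar N)} (hD : Finsupp.mapDomain r D = 0) :
    Finsupp.mapDomain r (HeckeJ.heckeDiv Qbar N j D) = 0 := by
  classical
  rcases isEmpty_or_nonempty (Place Qbar (modularFunctionFieldBar N)) with hne | hne
  · rw [Subsingleton.elim D 0, map_zero, Finsupp.mapDomain_zero]
  let γ : Divisor Qbar (modularFunctionFieldBar N) →+ _ :=
    (Finsupp.mapDomain.addMonoidHom r).comp (HeckeJ.heckeDiv Qbar N j)
  show γ D = 0
  have key : ∀ E, γ E = γ (Finsupp.mapDomain (Function.invFun r) (Finsupp.mapDomain r E)) := by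
    intro E
    induction E using Finsupp.induction with
    | zero => simp
    | single_add P n E _ _ ih =>
      rw [Finsupp.mapDomain_add, Finsupp.mapDomain_add, map_add, map_add, ← ih,
        Finsupp.mapDomain_single, Finsupp.mapDomain_single]
      congr 1
      rw [← mul_one n, ← smul_eq_mul, ← Finsupp.smul_single, ← Finsupp.smul_single, map_zsmul,
        map_zsmul]
      congr 1
      exact mapDomain_hecke_single_eq hℓN hA hr hj hjN (Function.invFun_eq ⟨P, rfl⟩).symm
  rw [key, hD, Finsupp.mapDomain_zero, map_zero]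

/-- **The kernel of reduction is stable under `T_j`.** -/
theorem reductionModL_hecke_eq_zero_of_eq_zero (hℓN : ¬ ℓ ∣ N) (hA : A.LiesOverPrime ℓ)
    (q : Nat.Primes) (hqN : ¬ (q : ℕ) ∣ N) {x : JZero N} (hx : reductionModL A N x = 0) :
    reductionModL A N (heckeOperatorBar N q x) = 0 := by
  haveI := isAlgClosed_residueField hℓN hA
  haveI : NeZero (q : ℕ) := ⟨q.2.ne_zero⟩
  have h := Igusa.reductionInputsModL hℓN hA
  obtain ⟨hr, hgen⟩ := h.choose_spec
  set G := Igusa.x0GoodReduction hℓN hA with hG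
  obtain ⟨D, rfl⟩ := Pic0.mk_surjective x
  rw [reductionModL_mk h] at hx
  have hprin := (QuotientAddGroup.eq_zero_iff _).mp hx
  rw [AddSubgroup.mem_addSubgroupOf, coe_reductionDegZeroAlong] at hprin
  obtain ⟨g, hg0, hg⟩ := hprin
  obtain ⟨f, hf⟩ := G.φ_surjective g
  have hfg : G.φ f ≠ 0 := hf ▸ hg0
  set Df := divisorOf Qbar (f : modularFunctionFieldBar N) with hDf
  have hfne : (f : modularFunctionFieldBar N) ≠ 0 := fun h0 => hfg (by
    rw [show f = 0 from Subtype.ext h0, map_zero])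
  have hrG : placeReductionModL h = G.placeMap := eq_placeMap_of_isPlaceReduction hℓN hA hr
  have hzero : Finsupp.mapDomain (placeReductionModL h)
      ((D : Divisor Qbar (modularFunctionFieldBar N)) - Df) = 0 := by
    ext Q
    rw [Finsupp.mapDomain_sub, Finsupp.sub_apply, hg Q, hrG,
      ← Curve.GoodReduction.divMap_apply, G.divMap_apply_eq_ord f hfg (divisorOf_apply _) Q, hf,
      sub_self, Finsupp.zero_apply]
  have h1 := mapDomain_hecke_eq_zero hℓN hA hr q.2 hqN hzero
  rw [map_sub, Finsupp.mapDomain_sub, sub_eq_zero] at h1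
  have h2 : Finsupp.mapDomain (placeReductionModL h) (HeckeJ.heckeDiv Qbar N q Df) ∈
      Divisor.principal (K := IsLocalRing.ResidueField A)
        (F := modularFunctionFieldFullC (IsLocalRing.ResidueField A) N) :=
    hr.mapDomain_mem_principal hgen
      (HeckeJ.heckeDiv_mem_principal Qbar N q ⟨_, hfne, divisorOf_apply _⟩)
  rw [HeckeJ.heckeOperatorBar_mk, reductionModL_mk h]
  refine (QuotientAddGroup.eq_zero_iff _).mpr ?_
  rw [AddSubgroup.mem_addSubgroupOf, coe_reductionDegZeroAlong]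
  exact h1 ▸ h2

end Fermat.Agent.ES
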